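import Mathlib

/-!
# Weak Chebotarev library (Frobenius density theorem, existence form): definitions

`degOneCount E p` is the number of ring homomorphisms `𝓞 E →+* ZMod p`, i.e. the number of
degree-one primes of the number field `E` above the rational prime `p`.
-/

namespace Fermat.Agent.Cheb

open NumberField

/-- Number of degree-one primes of `E` above `p`, counted as ring homs `𝓞 E →+* ZMod p`. -/
noncomputable def degOneCount (E : Type*) [Field E] [NumberField E] (p : ℕ) : ℕ :=
  Nat.card (𝓞 E →+* ZMod p)

end Fermat.Agent.Cheb
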