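import Mathlib

/-!
# Package C: the Möbius / fixed-coset identity (pure finite group theory)

For `σ, φ` in a finite group `G` with `n = orderOf σ`:
`∑_{d ∣ n} μ(d) · (n/d) · #{cosets of ⟨σ^d⟩ fixed by φ} = #{g : g⁻¹ φ g generates ⟨σ⟩}`.
-/

set_option linter.style.haveILetI false

namespace Fermat.Agent.Cheb

open ArithmeticFunction in
theorem sum_moebius_divisors (N : ℕ) :
    ∑ d ∈ N.divisors, (ArithmeticFunction.moebius d : ℤ) = if N = 1 then 1 else 0 := by
  have h := congrArg (fun f : ArithmeticFunction ℤ => f N)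
    (ArithmeticFunction.moebius_mul_coe_zeta)
  simp only [ArithmeticFunction.coe_mul_zeta_apply, ArithmeticFunction.one_apply] at h
  exact h

theorem pow_mem_zpowers_pow_iff {G : Type*} [Group G] [Finite G] (σ : G) {d : ℕ}
    (hd : d ∣ orderOf σ) (j : ℕ) : σ ^ j ∈ Subgroup.zpowers (σ ^ d) ↔ d ∣ j := by
  constructor
  · intro h
    obtain ⟨i, hi⟩ := Subgroup.mem_zpowers_iff.mp h
    have h1 : σ ^ ((j : ℤ) - d * i) = 1 := by
      rw [zpow_sub, zpow_natCast, zpow_mul, zpow_natCast, hi, mul_inv_cancel]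
    have h2 : (orderOf σ : ℤ) ∣ (j : ℤ) - d * i := orderOf_dvd_iff_zpow_eq_one.mpr h1
    have h3 : (d : ℤ) ∣ (j : ℤ) - d * i := (Int.natCast_dvd_natCast.mpr hd).trans h2
    have h4 : (d : ℤ) ∣ (j : ℤ) := by
      have := dvd_add h3 (dvd_mul_right (d : ℤ) i)
      simpa using this
    exact Int.natCast_dvd_natCast.mp h4
  · rintro ⟨e, rfl⟩
    rw [pow_mul]
    exact Subgroup.pow_mem _ (Subgroup.mem_zpowers _) _

theorem sum_moebius_indicator {G : Type*} [Group G] [Finite G] (σ x : G) :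
    ∑ d ∈ (orderOf σ).divisors, (ArithmeticFunction.moebius d : ℤ) *
        (open Classical in if x ∈ Subgroup.zpowers (σ ^ d) then (1 : ℤ) else 0)
      = (open Classical in if ∃ k : ℕ, k.Coprime (orderOf σ) ∧ x = σ ^ k then (1 : ℤ) else 0) := by
  classical
  have hnpos : 0 < orderOf σ := orderOf_pos σ
  by_cases hx : x ∈ Subgroup.zpowers σ
  · obtain ⟨j, rfl⟩ := (mem_powers_iff_mem_zpowers.mpr hx)
    have h1 : ∀ d ∈ (orderOf σ).divisors, (ArithmeticFunction.moebius d : ℤ) *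
        (if σ ^ j ∈ Subgroup.zpowers (σ ^ d) then (1 : ℤ) else 0) =
        if d ∣ j then (ArithmeticFunction.moebius d : ℤ) else 0 := by
      intro d hd
      have := pow_mem_zpowers_pow_iff σ (Nat.dvd_of_mem_divisors hd) j
      by_cases hdj : d ∣ j
      · rw [if_pos (this.mpr hdj), if_pos hdj, mul_one]
      · rw [if_neg (fun h => hdj (this.mp h)), if_neg hdj, mul_zero]
    rw [Finset.sum_congr rfl h1, ← Finset.sum_filter]
    have h2 : (orderOf σ).divisors.filter (fun d => d ∣ j) = (Nat.gcd j (orderOf σ)).divisors := by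
      ext d
      simp only [Finset.mem_filter, Nat.mem_divisors]
      constructor
      · rintro ⟨⟨h1, h2⟩, h3⟩
        exact ⟨Nat.dvd_gcd h3 h1, Nat.gcd_ne_zero_right h2⟩
      · rintro ⟨h1, h2⟩
        exact ⟨⟨h1.trans (Nat.gcd_dvd_right _ _), hnpos.ne'⟩, h1.trans (Nat.gcd_dvd_left _ _)⟩
    rw [h2, sum_moebius_divisors]
    have h3 : (∃ k : ℕ, k.Coprime (orderOf σ) ∧ σ ^ j = σ ^ k) ↔ Nat.gcd j (orderOf σ) = 1 := by
      constructor
      · rintro ⟨k, hk, hjk⟩
        have hmod : j ≡ k [MOD orderOf σ] := pow_eq_pow_iff_modEq.mp hjk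
        rw [hmod.gcd_eq]
        exact hk
      · intro h
        exact ⟨j, h, rfl⟩
    simp only [h3]
  · have h1 : ∀ d ∈ (orderOf σ).divisors, (ArithmeticFunction.moebius d : ℤ) *
        (if x ∈ Subgroup.zpowers (σ ^ d) then (1 : ℤ) else 0) = 0 := by
      intro d _
      have : x ∉ Subgroup.zpowers (σ ^ d) := fun h =>
        hx (Subgroup.zpowers_le.mpr (Subgroup.pow_mem _ (Subgroup.mem_zpowers σ) d) h)
      rw [if_neg this, mul_zero]
    rw [Finset.sum_eq_zero h1]
    have h2 : ¬ ∃ k : ℕ, k.Coprime (orderOf σ) ∧ x = σ ^ k := by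
      rintro ⟨k, -, rfl⟩
      exact hx (Subgroup.pow_mem _ (Subgroup.mem_zpowers σ) k)
    rw [if_neg h2]


/-- **Package C2.** `∑_{d ∣ n} μ(d) · (n/d) = φ(n)`. -/
theorem moebius_sum_eq_totient (n : ℕ) (hn : 0 < n) :
    ∑ d ∈ n.divisors, (ArithmeticFunction.moebius d : ℤ) * ((n / d : ℕ) : ℤ) = (n.totient : ℤ) := by
  have h := (ArithmeticFunction.sum_eq_iff_sum_mul_moebius_eq (R := ℤ)
    (f := fun i => (i.totient : ℤ)) (g := fun i => (i : ℤ))).mp (fun k _ => by
      have := Nat.sum_totient k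
      exact_mod_cast this) n hn
  simp only [Int.cast_id] at h
  rw [Nat.sum_divisorsAntidiagonal (fun a b => (ArithmeticFunction.moebius a : ℤ) * (b : ℤ))] at h
  exact h

theorem card_mul_card_fixed {G : Type*} [Group G] [Finite G] (U : Subgroup G) (φ : G) :
    Nat.card U * Nat.card {q : G ⧸ U // φ • q = q} = Nat.card {g : G // g⁻¹ * φ * g ∈ U} := by
  have hpre := QuotientGroup.card_preimage_mk U {q : G ⧸ U | φ • q = q}
  have hset : (QuotientGroup.mk ⁻¹' {q : G ⧸ U | φ • q = q}) = {g : G | g⁻¹ * φ * g ∈ U} := by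
    ext g
    show φ • (g : G ⧸ U) = (g : G ⧸ U) ↔ g⁻¹ * φ * g ∈ U
    rw [MulAction.Quotient.smul_mk, eq_comm, QuotientGroup.eq, smul_eq_mul, mul_assoc]
  rw [hset] at hpre
  exact hpre.symm

/-- **Package C1.** -/
theorem moebius_fixed_sum {G : Type*} [Group G] [Finite G] (σ φ : G) :
    (∑ d ∈ (orderOf σ).divisors, (ArithmeticFunction.moebius d : ℤ) * ((orderOf σ / d : ℕ) : ℤ) *
        (Nat.card {q : G ⧸ Subgroup.zpowers (σ ^ d) // φ • q = q} : ℤ))
      = (Nat.card {g : G // ∃ k : ℕ, k.Coprime (orderOf σ) ∧ g⁻¹ * φ * g = σ ^ k} : ℤ) := by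
  classical
  haveI : Fintype G := Fintype.ofFinite G
  have hnpos : 0 < orderOf σ := orderOf_pos σ
  have h1 : ∀ d ∈ (orderOf σ).divisors,
      (ArithmeticFunction.moebius d : ℤ) * ((orderOf σ / d : ℕ) : ℤ) *
        (Nat.card {q : G ⧸ Subgroup.zpowers (σ ^ d) // φ • q = q} : ℤ) =
      ∑ g : G, (ArithmeticFunction.moebius d : ℤ) *
        (if g⁻¹ * φ * g ∈ Subgroup.zpowers (σ ^ d) then (1 : ℤ) else 0) := by
    intro d hd
    have hdn : d ∣ orderOf σ := Nat.dvd_of_mem_divisors hd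
    have hd0 : d ≠ 0 := fun h => by
      rw [h, zero_dvd_iff] at hdn
      exact hnpos.ne' hdn
    have hcardU : Nat.card (Subgroup.zpowers (σ ^ d)) = orderOf σ / d := by
      rw [Nat.card_zpowers, orderOf_pow_of_dvd hd0 hdn]
    have h2 := card_mul_card_fixed (Subgroup.zpowers (σ ^ d)) φ
    rw [hcardU] at h2
    rw [mul_assoc, ← Nat.cast_mul, h2, ← Finset.mul_sum, Finset.sum_boole,
      Nat.card_eq_fintype_card, Fintype.card_subtype]
  rw [Finset.sum_congr rfl h1, Finset.sum_comm]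
  have h2 : ∀ g : G, ∑ d ∈ (orderOf σ).divisors, (ArithmeticFunction.moebius d : ℤ) *
        (if g⁻¹ * φ * g ∈ Subgroup.zpowers (σ ^ d) then (1 : ℤ) else 0) =
      if ∃ k : ℕ, k.Coprime (orderOf σ) ∧ g⁻¹ * φ * g = σ ^ k then (1 : ℤ) else 0 := by
    intro g
    have := sum_moebius_indicator σ (g⁻¹ * φ * g)
    convert this using 2
  rw [Finset.sum_congr rfl (fun g _ => h2 g), Finset.sum_boole, Nat.card_eq_fintype_card,
    Fintype.card_subtype]

end Fermat.Agent.Cheb
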