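import Mathlib
import Fermat.Agent.Cheb.Defs

/-!
# Package B: degree-one primes of a fixed field and fixed cosets of Frobenius

For `L/ℚ` finite Galois, `U ≤ Gal(L/ℚ)`, `E = L^U`, and all but finitely many primes `p`:
for every prime `P` of `𝓞 L` containing `p` and every Frobenius element `φ` at `P`,
the number of ring homs `𝓞 E →+* ZMod p` equals the number of cosets in `Gal(L/ℚ) ⧸ U` fixed by `φ`.
-/

set_option linter.style.haveILetI false

namespace Fermat.Agent.Cheb

open NumberField Polynomial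

theorem exists_zmod_of_pow_eq {k : Type*} [CommRing k] [IsDomain k] {p : ℕ} [Fact p.Prime]
    [CharP k p] (y : k) (hy : y ^ p = y) :
    ∃ a : ZMod p, ZMod.castHom (dvd_refl p) k a = y := by
  classical
  have hp : p.Prime := Fact.out
  set f : Polynomial k := X ^ p - X with hf
  have hdeg : f.natDegree = p := by
    rw [hf, natDegree_sub_eq_left_of_natDegree_lt, natDegree_X_pow]
    rw [natDegree_X_pow, natDegree_X]
    exact hp.one_lt
  have hf0 : f ≠ 0 := by
    intro h
    rw [h, natDegree_zero] at hdeg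
    exact hp.ne_zero hdeg.symm
  let R : Finset k := Finset.univ.image (ZMod.castHom (dvd_refl p) k)
  have hRcard : R.card = p := by
    rw [Finset.card_image_of_injective _ (RingHom.injective _), Finset.card_univ, ZMod.card]
  have hRsub : R ⊆ f.roots.toFinset := by
    intro z hz
    obtain ⟨a, -, rfl⟩ := Finset.mem_image.mp hz
    rw [Multiset.mem_toFinset, Polynomial.mem_roots hf0, IsRoot.def, hf, eval_sub, eval_pow,
      eval_X, ← map_pow, ZMod.pow_card, sub_self]
  have hcard : f.roots.toFinset.card ≤ R.card := by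
    rw [hRcard]
    calc f.roots.toFinset.card ≤ Multiset.card f.roots := Multiset.toFinset_card_le _
      _ ≤ f.natDegree := Polynomial.card_roots' f
      _ = p := hdeg
  have hEq := Finset.eq_of_subset_of_card_le hRsub hcard
  have hy' : y ∈ f.roots.toFinset := by
    rw [Multiset.mem_toFinset, mem_roots hf0, IsRoot.def, hf, eval_sub, eval_pow, eval_X, hy,
      sub_self]
  rw [← hEq] at hy'
  obtain ⟨a, -, ha⟩ := Finset.mem_image.mp hy'
  exact ⟨a, ha⟩

theorem card_ringHom_zmod_eq {R : Type*} [CommRing R] {k : Type*} [CommRing k] [IsDomain k]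
    {p : ℕ} [Fact p.Prime] [CharP k p] :
    Nat.card (R →+* ZMod p) = Nat.card {ψ : R →+* k // ∀ x, ψ x ^ p = ψ x} := by
  classical
  let ι : ZMod p →+* k := ZMod.castHom (dvd_refl p) k
  have hι : Function.Injective ι := RingHom.injective _
  refine Nat.card_congr (Equiv.ofBijective
    (fun ψ₀ : R →+* ZMod p => (⟨ι.comp ψ₀, fun x => by
      rw [RingHom.comp_apply, ← map_pow, ZMod.pow_card]⟩ : {ψ : R →+* k // ∀ x, ψ x ^ p = ψ x}))
    ⟨?_, ?_⟩)
  · intro ψ₁ ψ₂ h
    have h' : ι.comp ψ₁ = ι.comp ψ₂ := congrArg Subtype.val h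
    ext x
    exact hι (by simpa using RingHom.congr_fun h' x)
  · rintro ⟨ψ, hψ⟩
    have hmem : ∀ x, ψ x ∈ ι.range := fun x => by
      obtain ⟨a, ha⟩ := exists_zmod_of_pow_eq (ψ x) (hψ x)
      exact ⟨a, ha⟩
    let e : ZMod p ≃+* ι.range := RingEquiv.ofBijective ι.rangeRestrict
      ⟨fun a b h => hι (congrArg Subtype.val h), ι.rangeRestrict_surjective⟩
    refine ⟨(e.symm : ι.range →+* ZMod p).comp (ψ.codRestrict ι.range hmem), ?_⟩
    apply Subtype.ext
    ext x
    show ι (e.symm (ψ.codRestrict ι.range hmem x)) = ψ x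
    have h1 : ι (e.symm (ψ.codRestrict ι.range hmem x)) =
        ((e (e.symm (ψ.codRestrict ι.range hmem x)) : ι.range) : k) := rfl
    rw [h1, RingEquiv.apply_symm_apply]
    rfl

theorem card_ringHom_le_finrank {R : Type*} [CommRing R] [Module.Free ℤ R] [Module.Finite ℤ R]
    {k : Type*} [CommRing k] [IsDomain k] :
    Finite (R →+* k) ∧ Nat.card (R →+* k) ≤ Module.finrank ℤ R := by
  classical
  let b := Module.Free.chooseBasis ℤ R
  let v : (R →+* k) → (R →ₗ[ℤ] k) := fun ψ => (ψ : R →+ k).toIntLinearMap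
  let f : (R →ₗ[ℤ] k) →ₗ[k] (R → k) :=
    { toFun := fun l => ⇑l
      map_add' := fun _ _ => rfl
      map_smul' := fun _ _ => rfl }
  have hli0 : LinearIndependent k (fun ψ : R →+* k => (⇑(ψ : R →* k) : R → k)) :=
    (linearIndependent_monoidHom R k).comp (fun ψ : R →+* k => (ψ : R →* k))
      (fun ψ₁ ψ₂ h => RingHom.ext fun x => DFunLike.congr_fun h x)
  have hli : LinearIndependent k v := by
    refine LinearIndependent.of_comp f ?_
    exact hli0
  have e : (Module.Free.ChooseBasisIndex ℤ R → k) ≃ₗ[k] (R →ₗ[ℤ] k) := b.constr k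
  haveI : Module.Finite k (R →ₗ[ℤ] k) := Module.Finite.equiv e
  haveI : Finite (R →+* k) := hli.finite
  refine ⟨inferInstance, ?_⟩
  haveI : Fintype (R →+* k) := Fintype.ofFinite _
  rw [Nat.card_eq_fintype_card]
  calc Fintype.card (R →+* k) ≤ Module.finrank k (R →ₗ[ℤ] k) := hli.fintype_card_le_finrank
    _ = Module.finrank k (Module.Free.ChooseBasisIndex ℤ R → k) := e.finrank_eq.symm
    _ = Fintype.card (Module.Free.ChooseBasisIndex ℤ R) := Module.finrank_fintype_fun_eq_card k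
    _ = Module.finrank ℤ R := (Module.finrank_eq_card_chooseBasisIndex ℤ R).symm


section B
variable (L : Type*) [Field L] [NumberField L] [IsGalois ℚ L] (U : Subgroup (L ≃ₐ[ℚ] L))

omit [IsGalois ℚ L] in
theorem exists_sep (g g' : L ≃ₐ[ℚ] L) (h : g⁻¹ * g' ∉ U) :
    ∃ x : 𝓞 (IntermediateField.fixedField U),
      g • (algebraMap (𝓞 (IntermediateField.fixedField U)) (𝓞 L) x) ≠
        g' • (algebraMap (𝓞 (IntermediateField.fixedField U)) (𝓞 L) x) := by
  by_contra hall
  push Not at hall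
  apply h
  rw [← IntermediateField.fixingSubgroup_fixedField U, IntermediateField.mem_fixingSubgroup_iff]
  intro y hy
  obtain ⟨a, b, hb, hab⟩ := IsFractionRing.div_surjective (𝓞 (IntermediateField.fixedField U))
    (⟨y, hy⟩ : IntermediateField.fixedField U)
  have hy' : y = ((a : IntermediateField.fixedField U) : L) /
      ((b : IntermediateField.fixedField U) : L) := by
    have := congrArg (fun z : IntermediateField.fixedField U => (z : L)) hab
    simpa using this.symm
  have ha : g ((a : IntermediateField.fixedField U) : L) = g' ((a : IntermediateField.fixedField U) : L) :=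
    congrArg (fun z : 𝓞 L => (z : L)) (hall a)
  have hb' : g ((b : IntermediateField.fixedField U) : L) = g' ((b : IntermediateField.fixedField U) : L) :=
    congrArg (fun z : 𝓞 L => (z : L)) (hall b)
  have hgy : g y = g' y := by rw [hy', map_div₀, map_div₀, ha, hb']
  show g⁻¹ (g' y) = y
  rw [← hgy]
  exact g.symm_apply_apply y

omit [IsGalois ℚ L] in
theorem exists_bad_finset : ∃ S₀ : Finset ℕ, ∀ p : ℕ, p.Prime → p ∉ S₀ →
    ∀ P : Ideal (𝓞 L), P.IsPrime → (p : 𝓞 L) ∈ P → ∀ g g' : L ≃ₐ[ℚ] L,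
      (∀ x : 𝓞 (IntermediateField.fixedField U),
        g • (algebraMap (𝓞 (IntermediateField.fixedField U)) (𝓞 L) x) -
          g' • (algebraMap (𝓞 (IntermediateField.fixedField U)) (𝓞 L) x) ∈ P) →
      g⁻¹ * g' ∈ U := by
  classical
  haveI : Fintype (L ≃ₐ[ℚ] L) := Fintype.ofFinite _
  let zz : (L ≃ₐ[ℚ] L) × (L ≃ₐ[ℚ] L) → 𝓞 L := fun gg =>
    if h : gg.1⁻¹ * gg.2 ∉ U then
      gg.1 • (algebraMap (𝓞 (IntermediateField.fixedField U)) (𝓞 L) (exists_sep L U gg.1 gg.2 h).choose) -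
        gg.2 • (algebraMap (𝓞 (IntermediateField.fixedField U)) (𝓞 L) (exists_sep L U gg.1 gg.2 h).choose)
    else 1
  have hzz : ∀ gg, zz gg ≠ 0 := by
    intro gg
    by_cases h : gg.1⁻¹ * gg.2 ∉ U
    · simp only [zz, dif_pos h]
      exact sub_ne_zero.mpr (exists_sep L U gg.1 gg.2 h).choose_spec
    · simp only [zz, dif_neg h]
      exact one_ne_zero
  let N : ℕ := ∏ gg : (L ≃ₐ[ℚ] L) × (L ≃ₐ[ℚ] L), Ideal.absNorm (Ideal.span {zz gg})
  have hN : N ≠ 0 := by
    refine Finset.prod_ne_zero_iff.mpr fun gg _ => ?_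
    rw [Ne, Ideal.absNorm_eq_zero_iff, Ideal.span_singleton_eq_bot]
    exact hzz gg
  refine ⟨N.primeFactors, fun p hp hpS P hP hpP g g' hall => ?_⟩
  by_contra hU
  have hpN : ¬ p ∣ N := fun h => hpS (Nat.mem_primeFactors.mpr ⟨hp, h, hN⟩)
  have hzP : zz (g, g') ∈ P := by
    simp only [zz, dif_pos hU]
    exact hall _
  set a : ℕ := Ideal.absNorm (Ideal.span {zz (g, g')}) with ha
  have haP : (a : 𝓞 L) ∈ P :=
    (Ideal.span_singleton_le_iff_mem P).mpr hzP (Ideal.absNorm_mem _)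
  have haN : a ∣ N := Finset.dvd_prod_of_mem _ (Finset.mem_univ (g, g'))
  have hpa : ¬ p ∣ a := fun h => hpN (h.trans haN)
  have hcop : Nat.Coprime p a := (Nat.Prime.coprime_iff_not_dvd hp).mpr hpa
  have hbez := Nat.gcd_eq_gcd_ab p a
  rw [hcop.gcd_eq_one] at hbez
  have h1 : (1 : 𝓞 L) = (p : 𝓞 L) * ((Nat.gcdA p a : ℤ) : 𝓞 L) + (a : 𝓞 L) * ((Nat.gcdB p a : ℤ) : 𝓞 L) := by
    have := congrArg (fun z : ℤ => (z : 𝓞 L)) hbez
    simpa using this
  have h2 : (1 : 𝓞 L) ∈ P := by
    rw [h1]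
    exact P.add_mem (P.mul_mem_right _ hpP) (P.mul_mem_right _ haP)
  exact hP.ne_top ((Ideal.eq_top_iff_one P).mpr h2)


theorem card_quotient_eq_finrank :
    Nat.card ((L ≃ₐ[ℚ] L) ⧸ U) = Module.finrank ℤ (𝓞 (IntermediateField.fixedField U)) := by
  have h1 := IsGalois.card_aut_eq_finrank ℚ L
  have h2 := IntermediateField.finrank_fixedField_eq_card U
  have h3 := Module.finrank_mul_finrank ℚ (IntermediateField.fixedField U) L
  have h4 := Subgroup.card_eq_card_quotient_mul_card_subgroup U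
  rw [RingOfIntegers.rank]
  have hUpos : 0 < Nat.card U := Nat.card_pos
  rw [h1, ← h3, h2] at h4
  exact (Nat.eq_of_mul_eq_mul_right hUpos h4).symm

/-- **Package B.** -/
theorem degOneCount_fixedField_eq :
    ∃ S₀ : Finset ℕ, ∀ p : ℕ, p.Prime → p ∉ S₀ →
      ∀ (P : Ideal (𝓞 L)), P.IsPrime → (p : 𝓞 L) ∈ P →
      ∀ φ : L ≃ₐ[ℚ] L, (∀ x : 𝓞 L, φ • x - x ^ p ∈ P) →
        degOneCount (IntermediateField.fixedField U) p =
          Nat.card {q : (L ≃ₐ[ℚ] L) ⧸ U // φ • q = q} := by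
  classical
  obtain ⟨S₀, hS₀⟩ := exists_bad_finset L U
  refine ⟨S₀, fun p hp hpS P hP hpP φ hφ => ?_⟩
  haveI : Fact p.Prime := ⟨hp⟩
  haveI : P.IsPrime := hP
  haveI : IsDomain (𝓞 L ⧸ P) := Ideal.Quotient.isDomain P
  haveI : CharP (𝓞 L ⧸ P) p := (CharP.charP_iff_prime_eq_zero hp).2 (by
    have : Ideal.Quotient.mk P (p : 𝓞 L) = 0 := Ideal.Quotient.eq_zero_iff_mem.2 hpP
    simpa using this)
  unfold degOneCount
  rw [card_ringHom_zmod_eq (k := 𝓞 L ⧸ P)]
  let Θ : (L ≃ₐ[ℚ] L) → (𝓞 (IntermediateField.fixedField U) →+* 𝓞 L ⧸ P) := fun g =>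
    (Ideal.Quotient.mk P).comp ((MulSemiringAction.toRingHom (L ≃ₐ[ℚ] L) (𝓞 L) g).comp
      (algebraMap (𝓞 (IntermediateField.fixedField U)) (𝓞 L)))
  have hΘ_apply : ∀ g x, Θ g x = Ideal.Quotient.mk P
      (g • algebraMap (𝓞 (IntermediateField.fixedField U)) (𝓞 L) x) := fun _ _ => rfl
  have hΘU : ∀ a b : L ≃ₐ[ℚ] L, QuotientGroup.leftRel U a b → Θ a = Θ b := by
    intro a b hab
    rw [QuotientGroup.leftRel_apply] at hab
    ext x
    rw [hΘ_apply, hΘ_apply]
    have hfix : (a⁻¹ * b) • algebraMap (𝓞 (IntermediateField.fixedField U)) (𝓞 L) x =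
        algebraMap (𝓞 (IntermediateField.fixedField U)) (𝓞 L) x := by
      apply Subtype.ext
      show (a⁻¹ * b) ((x : IntermediateField.fixedField U) : L) =
        ((x : IntermediateField.fixedField U) : L)
      exact (IntermediateField.mem_fixedField_iff U _).mp
        (x : IntermediateField.fixedField U).2 (a⁻¹ * b) hab
    have hb : b • algebraMap (𝓞 (IntermediateField.fixedField U)) (𝓞 L) x =
        a • algebraMap (𝓞 (IntermediateField.fixedField U)) (𝓞 L) x := by
      conv_lhs => rw [show b = a * (a⁻¹ * b) by group, mul_smul, hfix]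
    rw [hb]
  let Θbar : (L ≃ₐ[ℚ] L) ⧸ U → (𝓞 (IntermediateField.fixedField U) →+* 𝓞 L ⧸ P) := fun q =>
    Quotient.liftOn' q Θ hΘU
  have hΘbar_mk : ∀ g : L ≃ₐ[ℚ] L, Θbar (QuotientGroup.mk g) = Θ g := fun g => rfl
  have hinj : Function.Injective Θbar := by
    intro q q' h
    induction q using QuotientGroup.induction_on with | _ g =>
    induction q' using QuotientGroup.induction_on with | _ g' =>
    rw [hΘbar_mk, hΘbar_mk] at h
    rw [QuotientGroup.eq]
    refine hS₀ p hp hpS P hP hpP g g' (fun x => ?_)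
    have := RingHom.congr_fun h x
    rw [hΘ_apply, hΘ_apply] at this
    exact Ideal.Quotient.eq.mp this
  obtain ⟨hfin, hcard⟩ := card_ringHom_le_finrank (R := 𝓞 (IntermediateField.fixedField U))
    (k := 𝓞 L ⧸ P)
  have hbij : Function.Bijective Θbar :=
    hinj.bijective_of_nat_card_le (by rw [card_quotient_eq_finrank L U]; exact hcard)
  have hfrob : ∀ (q : (L ≃ₐ[ℚ] L) ⧸ U) (x : 𝓞 (IntermediateField.fixedField U)),
      Θbar (φ • q) x = (Θbar q x) ^ p := by
    intro q x
    induction q using QuotientGroup.induction_on with | _ g =>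
    rw [MulAction.Quotient.smul_mk, hΘbar_mk, hΘbar_mk, hΘ_apply, hΘ_apply, smul_eq_mul, mul_smul,
      ← map_pow]
    exact Ideal.Quotient.eq.mpr (hφ _)
  symm
  refine Nat.card_congr (Equiv.subtypeEquiv (Equiv.ofBijective Θbar hbij) (fun q => ?_))
  show φ • q = q ↔ ∀ x, Θbar q x ^ p = Θbar q x
  constructor
  · intro h x
    rw [← hfrob, h]
  · intro h
    apply hinj
    ext x
    rw [hfrob, h]

end B

end Fermat.Agent.Cheb
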