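import Mathlib
import Fermat.Agent.Cheb.Defs

/-!
# Package A, part 1: ideals of prime norm, weights `N(I)^{-s}`, the upper Euler bound and the
Dedekind zeta function as a sum over ideals.
-/

set_option linter.style.haveILetI false

namespace Fermat.Agent.Cheb

open NumberField Filter Topology

section K
variable (K : Type*) [Field K] [NumberField K]

/-- ideals of prime norm `p` correspond to ring homs to `ZMod p`. -/
theorem degOneCount_eq_card_ideal {p : ℕ} (hp : p.Prime) :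
    degOneCount K p = Nat.card {I : Ideal (𝓞 K) // Ideal.absNorm I = p} := by
  classical
  haveI : Fact p.Prime := ⟨hp⟩
  unfold degOneCount
  have hker : ∀ ψ : 𝓞 K →+* ZMod p, Ideal.absNorm (RingHom.ker ψ) = p := by
    intro ψ
    have hsurj : Function.Surjective ψ := ZMod.ringHom_surjective ψ
    rw [Ideal.absNorm_apply, Submodule.cardQuot_apply,
      Nat.card_congr (RingHom.quotientKerEquivOfSurjective hsurj).toEquiv, Nat.card_zmod]
  refine Nat.card_congr (Equiv.ofBijective (fun ψ => ⟨RingHom.ker ψ, hker ψ⟩) ⟨?_, ?_⟩)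
  · intro ψ₁ ψ₂ h
    exact ZMod.ringHom_eq_of_ker_eq ψ₁ ψ₂ (congrArg Subtype.val h)
  · rintro ⟨I, hI⟩
    have hcard : Nat.card (𝓞 K ⧸ I) = p := by
      rw [← hI, Ideal.absNorm_apply, Submodule.cardQuot_apply]
    haveI : Finite (𝓞 K ⧸ I) := Nat.finite_of_card_ne_zero (by rw [hcard]; exact hp.ne_zero)
    letI : Fintype (𝓞 K ⧸ I) := Fintype.ofFinite _
    have hcard' : Fintype.card (𝓞 K ⧸ I) = p := by rw [← Nat.card_eq_fintype_card, hcard]
    let e : ZMod p ≃+* (𝓞 K ⧸ I) := ZMod.ringEquivOfPrime (𝓞 K ⧸ I) hp hcard'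
    refine ⟨(e.symm : (𝓞 K ⧸ I) →+* ZMod p).comp (Ideal.Quotient.mk I), ?_⟩
    apply Subtype.ext
    show RingHom.ker ((e.symm : (𝓞 K ⧸ I) →+* ZMod p).comp (Ideal.Quotient.mk I)) = I
    ext x
    rw [RingHom.mem_ker, RingHom.comp_apply]
    constructor
    · intro hx
      have : Ideal.Quotient.mk I x = 0 := by
        have := congrArg e hx
        simpa using this
      exact Ideal.Quotient.eq_zero_iff_mem.mp this
    · intro hx
      rw [Ideal.Quotient.eq_zero_iff_mem.mpr hx, map_zero]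

/-- The product of the norms of distinct primes containing `n` divides `n ^ [K:ℚ]`. -/
theorem prod_absNorm_dvd (T : Finset (Ideal (𝓞 K))) (n : ℕ)
    (hT : ∀ P ∈ T, P.IsPrime ∧ P ≠ ⊥ ∧ (n : 𝓞 K) ∈ P) :
    ∏ P ∈ T, Ideal.absNorm P ∣ n ^ Module.finrank ℚ K := by
  classical
  have h1 : ∏ P ∈ T, P ∣ Ideal.span {(n : 𝓞 K)} := by
    refine Finset.prod_primes_dvd _ (fun P hP => ?_) (fun P hP => ?_)
    · exact (Ideal.prime_iff_isPrime (hT P hP).2.1).mpr (hT P hP).1
    · rw [Ideal.dvd_iff_le, Ideal.span_singleton_le_iff_mem]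
      exact (hT P hP).2.2
  have h2 : Ideal.absNorm (∏ P ∈ T, P) ∣ Ideal.absNorm (Ideal.span {(n : 𝓞 K)}) :=
    Ideal.absNorm_dvd_absNorm_of_le (Ideal.dvd_iff_le.mp h1)
  rw [map_prod] at h2
  have h3 : Ideal.absNorm (Ideal.span {(n : 𝓞 K)}) = n ^ Module.finrank ℚ K := by
    rw [Ideal.absNorm_span_singleton]
    have : (n : 𝓞 K) = algebraMap ℤ (𝓞 K) (n : ℤ) := by simp
    rw [this, Algebra.norm_algebraMap, RingOfIntegers.rank, Int.natAbs_pow, Int.natAbs_natCast]
  rwa [h3] at h2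

/-- A nonzero prime has norm a positive power of a rational prime that it contains. -/
theorem exists_prime_pow_eq_absNorm (P : Ideal (𝓞 K)) (hP : P.IsPrime) (hP0 : P ≠ ⊥) :
    ∃ p f : ℕ, p.Prime ∧ 0 < f ∧ Ideal.absNorm P = p ^ f ∧ (p : 𝓞 K) ∈ P := by
  classical
  have hN0 : Ideal.absNorm P ≠ 0 := fun h => hP0 (Ideal.absNorm_eq_zero_iff.mp h)
  have hN1 : Ideal.absNorm P ≠ 1 := fun h => hP.ne_top (Ideal.absNorm_eq_one_iff.mp h)
  haveI : Finite (𝓞 K ⧸ P) := by
    apply Nat.finite_of_card_ne_zero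
    rw [← Submodule.cardQuot_apply, ← Ideal.absNorm_apply]
    exact hN0
  haveI : IsDomain (𝓞 K ⧸ P) := Ideal.Quotient.isDomain P
  obtain ⟨c, hc⟩ := CharP.exists (𝓞 K ⧸ P)
  have hc0 : c ≠ 0 := by
    intro h
    subst h
    haveI : CharZero (𝓞 K ⧸ P) := CharP.charP_to_charZero _
    exact not_finite (𝓞 K ⧸ P)
  have hcp : c.Prime := (CharP.char_is_prime_or_zero (𝓞 K ⧸ P) c).resolve_right hc0
  have hcP : (c : 𝓞 K) ∈ P := by
    rw [← Ideal.Quotient.eq_zero_iff_mem, map_natCast]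
    exact CharP.cast_eq_zero _ c
  have hdvd := prod_absNorm_dvd K {P} c (by simpa using ⟨hP, hP0, hcP⟩)
  rw [Finset.prod_singleton] at hdvd
  obtain ⟨f, -, hf⟩ := (Nat.dvd_prime_pow hcp).mp hdvd
  refine ⟨c, f, hcp, ?_, hf, hcP⟩
  rcases Nat.eq_zero_or_pos f with h | h
  · rw [h, pow_zero] at hf
    exact absurd hf hN1
  · exact h

end K


section W
variable {K : Type*} [Field K] [NumberField K]

/-- the weight `N(I)^{-s}`. -/
noncomputable def wt (s : ℝ) (I : Ideal (𝓞 K)) : ℝ := (Ideal.absNorm I : ℝ) ^ (-s)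

theorem wt_nonneg (s : ℝ) (I : Ideal (𝓞 K)) : 0 ≤ wt s I :=
  Real.rpow_nonneg (Nat.cast_nonneg _) _

theorem wt_bot {s : ℝ} (hs : 0 < s) : wt s (⊥ : Ideal (𝓞 K)) = 0 := by
  unfold wt
  rw [Ideal.absNorm_bot, Nat.cast_zero, Real.zero_rpow (by linarith)]

theorem wt_mul (s : ℝ) (I J : Ideal (𝓞 K)) : wt s (I * J) = wt s I * wt s J := by
  unfold wt
  rw [map_mul, Nat.cast_mul, Real.mul_rpow (Nat.cast_nonneg _) (Nat.cast_nonneg _)]

theorem wt_one (s : ℝ) : wt s (1 : Ideal (𝓞 K)) = 1 := by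
  unfold wt
  rw [map_one, Nat.cast_one, Real.one_rpow]

theorem wt_pow (s : ℝ) (I : Ideal (𝓞 K)) (n : ℕ) : wt s (I ^ n) = wt s I ^ n := by
  induction n with
  | zero => rw [pow_zero, pow_zero, wt_one]
  | succ n ih => rw [pow_succ, pow_succ, wt_mul, ih]

theorem wt_prod (s : ℝ) {ι : Type*} (T : Finset ι) (f : ι → Ideal (𝓞 K)) :
    wt s (∏ i ∈ T, f i) = ∏ i ∈ T, wt s (f i) := by
  classical
  induction T using Finset.induction_on with
  | empty => rw [Finset.prod_empty, Finset.prod_empty, wt_one]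
  | insert a T ha ih => rw [Finset.prod_insert ha, Finset.prod_insert ha, wt_mul, ih]

theorem two_le_absNorm {P : Ideal (𝓞 K)} (hP : P.IsPrime) (hP0 : P ≠ ⊥) :
    2 ≤ Ideal.absNorm P := by
  have hN0 : Ideal.absNorm P ≠ 0 := fun h => hP0 (Ideal.absNorm_eq_zero_iff.mp h)
  have hN1 : Ideal.absNorm P ≠ 1 := fun h => hP.ne_top (Ideal.absNorm_eq_one_iff.mp h)
  omega

theorem wt_le_half {s : ℝ} (hs : 1 ≤ s) {P : Ideal (𝓞 K)} (hP : P.IsPrime) (hP0 : P ≠ ⊥) :
    wt s P ≤ 1 / 2 := by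
  unfold wt
  have h2 : (2 : ℝ) ≤ (Ideal.absNorm P : ℝ) := by exact_mod_cast two_le_absNorm hP hP0
  calc (Ideal.absNorm P : ℝ) ^ (-s) ≤ (2 : ℝ) ^ (-s) :=
        Real.rpow_le_rpow_of_nonpos (by norm_num) h2 (by linarith)
    _ ≤ (2 : ℝ) ^ (-1 : ℝ) := Real.rpow_le_rpow_of_exponent_le (by norm_num) (by linarith)
    _ = 1 / 2 := by rw [Real.rpow_neg_one]; norm_num

/-- **Upper Euler bound**: a finite sum of weights of ideals is bounded by a finite Euler
product over nonzero primes. -/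
theorem sum_wt_le_prod {s : ℝ} (hs : 1 ≤ s) (𝒜 : Finset (Ideal (𝓞 K))) :
    ∃ T : Finset (Ideal (𝓞 K)), (∀ P ∈ T, P.IsPrime ∧ P ≠ ⊥) ∧
      ∑ I ∈ 𝒜, wt s I ≤ ∏ P ∈ T, (1 - wt s P)⁻¹ := by
  classical
  set 𝒜' := 𝒜.filter (fun I => I ≠ ⊥) with h𝒜'
  set T : Finset (Ideal (𝓞 K)) :=
    𝒜'.biUnion (fun I => (UniqueFactorizationMonoid.normalizedFactors I).toFinset) with hT
  have hTprime : ∀ P ∈ T, P.IsPrime ∧ P ≠ ⊥ := by
    intro P hP
    rw [hT, Finset.mem_biUnion] at hP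
    obtain ⟨I, hI, hPI⟩ := hP
    rw [Multiset.mem_toFinset] at hPI
    have hprime : Prime P := UniqueFactorizationMonoid.prime_of_normalized_factor P hPI
    exact ⟨Ideal.isPrime_of_prime hprime, hprime.ne_zero⟩
  refine ⟨T, hTprime, ?_⟩
  set E : ℕ := 𝒜'.sup (fun I => Multiset.card (UniqueFactorizationMonoid.normalizedFactors I))
    with hE
  -- exponent vectors
  let D : Finset (T → ℕ) := Fintype.piFinset (fun _ : T => Finset.range (E + 1))
  let g : (T → ℕ) → Ideal (𝓞 K) := fun c => ∏ P : T, (P : Ideal (𝓞 K)) ^ c P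
  let cI : Ideal (𝓞 K) → (T → ℕ) := fun I P =>
    Multiset.count (P : Ideal (𝓞 K)) (UniqueFactorizationMonoid.normalizedFactors I)
  have hcI_mem : ∀ I ∈ 𝒜', cI I ∈ D := by
    intro I hI
    rw [Fintype.mem_piFinset]
    intro P
    rw [Finset.mem_range, Nat.lt_succ_iff]
    calc cI I P ≤ Multiset.card (UniqueFactorizationMonoid.normalizedFactors I) :=
          Multiset.count_le_card _ _
      _ ≤ E := Finset.le_sup (f := fun I =>
          Multiset.card (UniqueFactorizationMonoid.normalizedFactors I)) hI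
  have hg_cI : ∀ I ∈ 𝒜', g (cI I) = I := by
    intro I hI
    have hI0 : I ≠ ⊥ := (Finset.mem_filter.mp hI).2
    have h1 := Ideal.prod_normalizedFactors_eq_self hI0
    rw [Finset.prod_multiset_count] at h1
    have hsub : (UniqueFactorizationMonoid.normalizedFactors I).toFinset ⊆ T := by
      intro P hP
      rw [hT, Finset.mem_biUnion]
      exact ⟨I, hI, hP⟩
    have h2 : ∏ P ∈ T, P ^ Multiset.count P (UniqueFactorizationMonoid.normalizedFactors I) = I := by
      rw [← Finset.prod_subset hsub, h1]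
      intro P _ hP
      rw [Multiset.mem_toFinset] at hP
      rw [Multiset.count_eq_zero_of_notMem hP, pow_zero]
    exact (Finset.prod_coe_sort T
      (fun P => P ^ Multiset.count P (UniqueFactorizationMonoid.normalizedFactors I))).trans h2
  have hwg : ∀ c : T → ℕ, wt s (g c) = ∏ P : T, wt s (P : Ideal (𝓞 K)) ^ c P := by
    intro c
    show wt s (∏ P : T, (P : Ideal (𝓞 K)) ^ c P) = _
    rw [wt_prod]
    exact Finset.prod_congr rfl fun P _ => wt_pow s _ _
  calc ∑ I ∈ 𝒜, wt s I = ∑ I ∈ 𝒜', wt s I := by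
        rw [h𝒜', Finset.sum_filter]
        refine Finset.sum_congr rfl fun I _ => ?_
        by_cases hI : I = ⊥
        · rw [hI, wt_bot (by linarith)]; simp
        · simp [hI]
    _ = ∑ I ∈ 𝒜', wt s (g (cI I)) := Finset.sum_congr rfl fun I hI => by rw [hg_cI I hI]
    _ = ∑ c ∈ 𝒜'.image cI, wt s (g c) := by
        rw [Finset.sum_image]
        intro I hI J hJ hIJ
        rw [← hg_cI I hI, ← hg_cI J hJ, hIJ]
    _ ≤ ∑ c ∈ D, wt s (g c) := by
        refine Finset.sum_le_sum_of_subset_of_nonneg ?_ (fun c _ _ => wt_nonneg s _)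
        intro c hc
        obtain ⟨I, hI, rfl⟩ := Finset.mem_image.mp hc
        exact hcI_mem I hI
    _ = ∑ c ∈ D, ∏ P : T, wt s (P : Ideal (𝓞 K)) ^ c P :=
        Finset.sum_congr rfl fun c _ => hwg c
    _ = ∏ P : T, ∑ e ∈ Finset.range (E + 1), wt s (P : Ideal (𝓞 K)) ^ e := by
        rw [Finset.prod_univ_sum]
    _ ≤ ∏ P : T, (1 - wt s (P : Ideal (𝓞 K)))⁻¹ := by
        refine Finset.prod_le_prod (fun P _ => Finset.sum_nonneg fun e _ =>
          pow_nonneg (wt_nonneg s _) _) (fun P _ => ?_)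
        have hlt : wt s (P : Ideal (𝓞 K)) < 1 :=
          lt_of_le_of_lt (wt_le_half hs (hTprime P P.2).1 (hTprime P P.2).2) (by norm_num)
        exact sum_le_hasSum _ (fun e _ => pow_nonneg (wt_nonneg s _) _)
          (hasSum_geometric_of_lt_one (wt_nonneg s _) hlt)
    _ = ∏ P ∈ T, (1 - wt s P)⁻¹ := Finset.prod_coe_sort T (fun P => (1 - wt s P)⁻¹)

end W


section Z
variable (K : Type*) [Field K] [NumberField K]

/-- coefficient function of the Dedekind zeta function -/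
noncomputable def idealCount (n : ℕ) : ℕ := Nat.card {I : Ideal (𝓞 K) // Ideal.absNorm I = n}

theorem lseriesSummable_idealCount {s : ℝ} (hs : 1 < s) :
    LSeriesSummable (fun n => ((idealCount K n : ℝ) : ℂ)) (s : ℂ) := by
  have hlim : Tendsto (fun n : ℕ => (∑ k ∈ Finset.Icc 1 n, (idealCount K k : ℝ)) / (n : ℝ)) atTop
      (𝓝 (dedekindZeta_residue K)) := by
    refine ((Ideal.tendsto_norm_le_div_atTop₀ K).comp tendsto_natCast_atTop_atTop).congr fun n ↦ ?_
    simp only [Function.comp_apply, Nat.cast_le, ← Nat.cast_sum]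
    congr
    unfold idealCount
    rw [← add_left_inj 1, ← Ideal.card_norm_le_eq_card_norm_le_add_one,
      show Finset.Icc 1 n = Finset.Ioc 0 n from Finset.Icc_succ_left_eq_Ioc _ _,
      show 1 = Nat.card {I : Ideal (𝓞 K) // Ideal.absNorm I = 0} by simp [Ideal.absNorm_eq_zero_iff],
      Finset.sum_Ioc_add_eq_sum_Icc (n.zero_le),
      ← Finset.card_preimage_eq_sum_card_image_eq (fun k _ ↦ Ideal.finite_setOfPred_absNorm_eq k)]
    simp [Set.coe_eq_subtype]
  refine LSeriesSummable_of_sum_norm_bigO_and_nonneg ?_ (fun _ => Nat.cast_nonneg _) zero_le_one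
    (by simpa using hs)
  exact Asymptotics.isBigO_atTop_natCast_rpow_of_tendsto_div_rpow (by simpa using hlim)

theorem term_idealCount {s : ℝ} (hs : s ≠ 0) (n : ℕ) :
    LSeries.term (fun n => ((idealCount K n : ℝ) : ℂ)) (s : ℂ) n =
      (((idealCount K n : ℝ) * (n : ℝ) ^ (-s) : ℝ) : ℂ) := by
  rcases Nat.eq_zero_or_pos n with h | h
  · subst h
    rw [LSeries.term_zero, Nat.cast_zero, Real.zero_rpow (neg_ne_zero.mpr hs), mul_zero,
      Complex.ofReal_zero]
  · rw [LSeries.term_of_ne_zero h.ne', Real.rpow_neg (Nat.cast_nonneg n), Complex.ofReal_mul,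
      Complex.ofReal_inv, Complex.ofReal_cpow (Nat.cast_nonneg n), div_eq_mul_inv]
    simp only [Complex.ofReal_natCast]

theorem summable_idealCount_mul {s : ℝ} (hs : 1 < s) :
    Summable (fun n : ℕ => (idealCount K n : ℝ) * (n : ℝ) ^ (-s)) := by
  have h := lseriesSummable_idealCount K hs
  unfold LSeriesSummable at h
  rw [← Complex.summable_ofReal]
  refine h.congr fun n => ?_
  rw [term_idealCount K (by linarith)]

theorem tsum_idealCount_mul {s : ℝ} (hs : 1 < s) :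
    ((∑' n : ℕ, (idealCount K n : ℝ) * (n : ℝ) ^ (-s) : ℝ) : ℂ) = dedekindZeta K s := by
  rw [Complex.ofReal_tsum]
  unfold dedekindZeta LSeries
  refine tsum_congr fun n => ?_
  rw [← term_idealCount K (by linarith)]
  refine congrArg (fun f => LSeries.term f (s : ℂ) n) (funext fun m => ?_)
  simp [idealCount]

instance (n : ℕ) : Finite {I : Ideal (𝓞 K) // Ideal.absNorm I = n} :=
  (Ideal.finite_setOfPred_absNorm_eq n).to_subtype

theorem summable_wt {s : ℝ} (hs : 1 < s) : Summable (fun I : Ideal (𝓞 K) => wt s I) := by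
  rw [← (Equiv.sigmaFiberEquiv (Ideal.absNorm : Ideal (𝓞 K) → ℕ)).summable_iff]
  refine (summable_sigma_of_nonneg (f := (fun I => wt s I) ∘
    (Equiv.sigmaFiberEquiv (Ideal.absNorm : Ideal (𝓞 K) → ℕ)))
    (fun x => Real.rpow_nonneg (Nat.cast_nonneg _) _)).mpr ⟨fun n => Summable.of_finite, ?_⟩
  refine (summable_idealCount_mul K hs).congr fun n => ?_
  have h1 : ∀ y : {x : Ideal (𝓞 K) // Ideal.absNorm x = n},
      ((fun I => wt s I) ∘ (Equiv.sigmaFiberEquiv (Ideal.absNorm : Ideal (𝓞 K) → ℕ))) ⟨n, y⟩ =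
        (n : ℝ) ^ (-s) := by
    intro y
    show (Ideal.absNorm (y : Ideal (𝓞 K)) : ℝ) ^ (-s) = _
    rw [y.2]
  rw [tsum_congr h1, tsum_const, nsmul_eq_mul]
  rfl

theorem tsum_wt_eq {s : ℝ} (hs : 1 < s) :
    ∑' I : Ideal (𝓞 K), wt s I = ∑' n : ℕ, (idealCount K n : ℝ) * (n : ℝ) ^ (-s) := by
  rw [← (Equiv.sigmaFiberEquiv (Ideal.absNorm : Ideal (𝓞 K) → ℕ)).tsum_eq]
  have hsum : Summable ((fun I => wt s I) ∘
      (Equiv.sigmaFiberEquiv (Ideal.absNorm : Ideal (𝓞 K) → ℕ))) :=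
    (Equiv.sigmaFiberEquiv (Ideal.absNorm : Ideal (𝓞 K) → ℕ)).summable_iff.mpr (summable_wt K hs)
  rw [show (fun c => wt s ((Equiv.sigmaFiberEquiv (Ideal.absNorm : Ideal (𝓞 K) → ℕ)) c)) =
    ((fun I => wt s I) ∘ (Equiv.sigmaFiberEquiv (Ideal.absNorm : Ideal (𝓞 K) → ℕ))) from rfl,
    hsum.tsum_sigma' (fun n => Summable.of_finite)]
  refine tsum_congr fun n => ?_
  have h1 : ∀ y : {x : Ideal (𝓞 K) // Ideal.absNorm x = n},
      ((fun I => wt s I) ∘ (Equiv.sigmaFiberEquiv (Ideal.absNorm : Ideal (𝓞 K) → ℕ))) ⟨n, y⟩ =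
        (n : ℝ) ^ (-s) := by
    intro y
    show (Ideal.absNorm (y : Ideal (𝓞 K)) : ℝ) ^ (-s) = _
    rw [y.2]
  rw [tsum_congr h1, tsum_const, nsmul_eq_mul]
  rfl

end Z


end Fermat.Agent.Cheb
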