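import Mathlib
import Fermat.Agent.Cheb.Defs
import Fermat.Agent.Cheb.ZetaBasic

/-!
# Package A: prime sums of degree-one primes

For a number field `E`, `∑_p degOneCount E p · p^{-s} = log (1/(s-1)) + O(1)` as `s → 1⁺`.
Inputs: the simple pole of the Dedekind zeta function (Mathlib:
`NumberField.tendsto_sub_one_mul_dedekindZeta_nhdsGT`) and Euler-product type inequalities
(upper bound from existence of prime factorisations, lower bound from squarefree products).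
-/

set_option linter.style.haveILetI false

namespace Fermat.Agent.Cheb

open NumberField Filter Topology

section L
variable (K : Type*) [Field K] [NumberField K]

/-- **Lower Euler bound**: squarefree products of distinct primes are distinct ideals. -/
theorem prod_one_add_wt_le {s : ℝ} (hs : 1 < s) (T : Finset (Ideal (𝓞 K)))
    (hT : ∀ P ∈ T, P.IsPrime ∧ P ≠ ⊥) :
    ∏ P ∈ T, (1 + wt s P) ≤ ∑' I : Ideal (𝓞 K), wt s I := by
  classical
  rw [Finset.prod_one_add]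
  have hinj : Set.InjOn (fun A : Finset (Ideal (𝓞 K)) => ∏ P ∈ A, P) (T.powerset : Set _) := by
    have key : ∀ A B : Finset (Ideal (𝓞 K)), A ⊆ T → B ⊆ T → ∏ P ∈ A, P = ∏ P ∈ B, P → A ⊆ B := by
      intro A B hA hB hAB P hPA
      have hPprime : Prime P := (Ideal.prime_iff_isPrime (hT P (hA hPA)).2).mpr (hT P (hA hPA)).1
      have h1 : P ∣ ∏ Q ∈ B, Q := hAB ▸ Finset.dvd_prod_of_mem _ hPA
      obtain ⟨Q, hQB, hPQ⟩ := (Prime.dvd_finsetProd_iff hPprime _).mp h1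
      have hQle : Q ≤ P := Ideal.dvd_iff_le.mp hPQ
      have hQmax : Q.IsMaximal := (hT Q (hB hQB)).1.isMaximal (hT Q (hB hQB)).2
      have hPQ' : Q = P := hQmax.eq_of_le (hT P (hA hPA)).1.ne_top hQle
      rwa [← hPQ']
    intro A hA B hB hAB
    rw [Finset.mem_coe, Finset.mem_powerset] at hA hB
    exact Finset.Subset.antisymm (key A B hA hB hAB) (key B A hB hA hAB.symm)
  calc ∑ A ∈ T.powerset, ∏ P ∈ A, wt s P = ∑ A ∈ T.powerset, wt s (∏ P ∈ A, P) :=
        Finset.sum_congr rfl fun A _ => (wt_prod s A (fun P => P)).symm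
    _ = ∑ I ∈ T.powerset.image (fun A : Finset (Ideal (𝓞 K)) => ∏ P ∈ A, P), wt s I :=
        (Finset.sum_image hinj).symm
    _ ≤ ∑' I : Ideal (𝓞 K), wt s I :=
        (summable_wt K hs).sum_le_tsum _ (fun I _ => wt_nonneg s I)

theorem one_le_tsum_wt {s : ℝ} (hs : 1 < s) : 1 ≤ ∑' I : Ideal (𝓞 K), wt s I := by
  have := prod_one_add_wt_le K hs ∅ (by simp)
  simpa using this

end L


section P
variable (K : Type*) [Field K] [NumberField K]

/-- the rational prime below a nonzero prime ideal -/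
noncomputable def pbelow (P : Ideal (𝓞 K)) : ℕ := (Ideal.absNorm P).minFac

theorem pbelow_spec {P : Ideal (𝓞 K)} (hP : P.IsPrime) (hP0 : P ≠ ⊥) :
    (pbelow K P).Prime ∧ ((pbelow K P : ℕ) : 𝓞 K) ∈ P ∧
      ∃ f : ℕ, 0 < f ∧ Ideal.absNorm P = pbelow K P ^ f := by
  obtain ⟨p, f, hp, hf, hN, hmem⟩ := exists_prime_pow_eq_absNorm K P hP hP0
  have h : pbelow K P = p := by
    unfold pbelow
    rw [hN, hp.pow_minFac hf.ne']
  rw [h]
  exact ⟨hp, hmem, f, hf, hN⟩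

theorem card_fiber_pbelow_le (T : Finset (Ideal (𝓞 K))) (hT : ∀ P ∈ T, P.IsPrime ∧ P ≠ ⊥)
    (n : ℕ) [DecidablePred fun P : Ideal (𝓞 K) => pbelow K P = n] :
    (T.filter (fun P => pbelow K P = n)).card ≤ Module.finrank ℚ K := by
  classical
  rcases (T.filter (fun P => pbelow K P = n)).eq_empty_or_nonempty with h | ⟨P₀, hP₀⟩
  · rw [h, Finset.card_empty]; exact Nat.zero_le _
  · rw [Finset.mem_filter] at hP₀
    have hn : n.Prime := hP₀.2 ▸ (pbelow_spec K (hT P₀ hP₀.1).1 (hT P₀ hP₀.1).2).1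
    have hdvd := prod_absNorm_dvd K (T.filter (fun P => pbelow K P = n)) n (by
      intro P hP
      rw [Finset.mem_filter] at hP
      refine ⟨(hT P hP.1).1, (hT P hP.1).2, ?_⟩
      have := (pbelow_spec K (hT P hP.1).1 (hT P hP.1).2).2.1
      rwa [hP.2] at this)
    have hle : n ^ (T.filter (fun P => pbelow K P = n)).card ≤
        ∏ P ∈ T.filter (fun P => pbelow K P = n), Ideal.absNorm P := by
      refine Finset.pow_card_le_prod _ _ _ fun P hP => ?_
      rw [Finset.mem_filter] at hP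
      obtain ⟨-, -, f, hf, hN⟩ := pbelow_spec K (hT P hP.1).1 (hT P hP.1).2
      rw [hN, hP.2]
      exact Nat.le_self_pow hf.ne' n
    have hle2 := Nat.le_of_dvd (pow_pos hn.pos _) hdvd
    exact (Nat.pow_le_pow_iff_right hn.one_lt).mp (hle.trans hle2)

theorem degOneCount_le {p : ℕ} (hp : p.Prime) : degOneCount K p ≤ Module.finrank ℚ K := by
  classical
  rw [degOneCount_eq_card_ideal K hp]
  have hfin := Ideal.finite_setOfPred_absNorm_eq (S := 𝓞 K) p
  have hT : ∀ P ∈ hfin.toFinset, P.IsPrime ∧ P ≠ ⊥ ∧ ((p : ℕ) : 𝓞 K) ∈ P := by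
    intro P hP
    rw [Set.Finite.mem_toFinset] at hP
    replace hP : Ideal.absNorm P = p := hP
    refine ⟨Ideal.isPrime_of_irreducible_absNorm (hP ▸ hp.prime.irreducible), ?_, ?_⟩
    · intro h
      rw [h, Ideal.absNorm_bot] at hP
      exact hp.ne_zero hP.symm
    · have := Ideal.absNorm_mem P
      rwa [hP] at this
  have hdvd := prod_absNorm_dvd K hfin.toFinset p hT
  have hprod : ∏ P ∈ hfin.toFinset, Ideal.absNorm P = p ^ hfin.toFinset.card :=
    Finset.prod_eq_pow_card fun P hP => by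
      rw [Set.Finite.mem_toFinset] at hP
      exact hP
  rw [hprod] at hdvd
  have hle := Nat.le_of_dvd (pow_pos hp.pos _) hdvd
  have hcard : Nat.card {I : Ideal (𝓞 K) // Ideal.absNorm I = p} = hfin.toFinset.card := by
    rw [← Set.ncard_eq_toFinset_card _ hfin, ← Nat.card_coe_set_eq]
    rfl
  rw [hcard]
  exact (Nat.pow_le_pow_iff_right hp.one_lt).mp hle


theorem sum_le_tsum_primes (h : ℕ → ℝ) (hnn : ∀ p : Nat.Primes, 0 ≤ h p)
    (hsum : Summable (fun p : Nat.Primes => h p)) (F : Finset ℕ) (hF : ∀ n ∈ F, n.Prime) :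
    ∑ n ∈ F, h n ≤ ∑' p : Nat.Primes, h p := by
  classical
  have h1 : ∑ n ∈ F, h n = ∑ p ∈ (F.subtype Nat.Prime : Finset Nat.Primes), h p := by
    have := Finset.sum_subtype_eq_sum_filter (s := F) h (p := Nat.Prime)
    rw [Finset.filter_true_of_mem hF] at this
    exact this.symm
  rw [h1]
  exact Summable.sum_le_tsum (f := fun p : Nat.Primes => h p)
    (F.subtype Nat.Prime : Finset Nat.Primes) (fun p _ => hnn p) hsum

theorem summable_primes_neg_two : Summable (fun p : Nat.Primes => ((p : ℕ) : ℝ) ^ (-2 : ℝ)) :=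
  Nat.Primes.summable_rpow.mpr (by norm_num)

theorem summable_degOneCount {s : ℝ} (hs : 1 < s) :
    Summable (fun p : Nat.Primes => (degOneCount K p : ℝ) * ((p : ℕ) : ℝ) ^ (-s)) := by
  have h1 : Summable (fun p : Nat.Primes => (Module.finrank ℚ K : ℝ) * ((p : ℕ) : ℝ) ^ (-s)) :=
    (Nat.Primes.summable_rpow.mpr (by linarith)).mul_left _
  refine Summable.of_nonneg_of_le (fun p => ?_) (fun p => ?_) h1
  · exact mul_nonneg (Nat.cast_nonneg _) (Real.rpow_nonneg (Nat.cast_nonneg _) _)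
  · refine mul_le_mul_of_nonneg_right ?_ (Real.rpow_nonneg (Nat.cast_nonneg _) _)
    exact_mod_cast degOneCount_le K p.2

theorem sum_pbelow_le (T : Finset (Ideal (𝓞 K))) (hT : ∀ P ∈ T, P.IsPrime ∧ P ≠ ⊥) :
    ∑ P ∈ T, ((pbelow K P : ℕ) : ℝ) ^ (-2 : ℝ) ≤
      (Module.finrank ℚ K : ℝ) * ∑' p : Nat.Primes, ((p : ℕ) : ℝ) ^ (-2 : ℝ) := by
  classical
  rw [Finset.sum_comp (fun n : ℕ => (n : ℝ) ^ (-2 : ℝ)) (pbelow K)]
  calc ∑ n ∈ T.image (pbelow K), (T.filter (fun P => pbelow K P = n)).card • (n : ℝ) ^ (-2 : ℝ)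
      ≤ ∑ n ∈ T.image (pbelow K), (Module.finrank ℚ K : ℝ) * (n : ℝ) ^ (-2 : ℝ) := by
        refine Finset.sum_le_sum fun n _ => ?_
        rw [nsmul_eq_mul]
        refine mul_le_mul_of_nonneg_right ?_ (Real.rpow_nonneg (Nat.cast_nonneg _) _)
        exact_mod_cast card_fiber_pbelow_le K T hT n
    _ = (Module.finrank ℚ K : ℝ) * ∑ n ∈ T.image (pbelow K), (n : ℝ) ^ (-2 : ℝ) := by
        rw [Finset.mul_sum]
    _ ≤ (Module.finrank ℚ K : ℝ) * ∑' p : Nat.Primes, ((p : ℕ) : ℝ) ^ (-2 : ℝ) := by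
        refine mul_le_mul_of_nonneg_left ?_ (Nat.cast_nonneg _)
        refine sum_le_tsum_primes (fun n : ℕ => (n : ℝ) ^ (-2 : ℝ))
          (fun p => Real.rpow_nonneg (Nat.cast_nonneg _) _) summable_primes_neg_two _ ?_
        intro n hn
        obtain ⟨P, hP, rfl⟩ := Finset.mem_image.mp hn
        exact (pbelow_spec K (hT P hP).1 (hT P hP).2).1

theorem wt_sq_le_pbelow {s : ℝ} (hs : 1 ≤ s) {P : Ideal (𝓞 K)} (hP : P.IsPrime) (hP0 : P ≠ ⊥) :
    wt s P ^ 2 ≤ ((pbelow K P : ℕ) : ℝ) ^ (-2 : ℝ) := by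
  obtain ⟨hp, -, f, hf, hN⟩ := pbelow_spec K hP hP0
  have hp1 : (1 : ℝ) ≤ ((pbelow K P : ℕ) : ℝ) := by exact_mod_cast hp.one_lt.le
  have hpN : ((pbelow K P : ℕ) : ℝ) ≤ (Ideal.absNorm P : ℝ) := by
    rw [hN]
    exact_mod_cast Nat.le_self_pow hf.ne' _
  have h1 : wt s P ≤ ((pbelow K P : ℕ) : ℝ) ^ (-1 : ℝ) := by
    unfold wt
    calc (Ideal.absNorm P : ℝ) ^ (-s) ≤ ((pbelow K P : ℕ) : ℝ) ^ (-s) :=
          Real.rpow_le_rpow_of_nonpos (by linarith) hpN (by linarith)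
      _ ≤ ((pbelow K P : ℕ) : ℝ) ^ (-1 : ℝ) :=
          Real.rpow_le_rpow_of_exponent_le hp1 (by linarith)
  calc wt s P ^ 2 ≤ (((pbelow K P : ℕ) : ℝ) ^ (-1 : ℝ)) ^ 2 :=
        pow_le_pow_left₀ (wt_nonneg s P) h1 2
    _ = ((pbelow K P : ℕ) : ℝ) ^ (-2 : ℝ) := by
        rw [← Real.rpow_natCast, ← Real.rpow_mul (by linarith)]
        norm_num

theorem sum_wt_sq_le {s : ℝ} (hs : 1 ≤ s) (T : Finset (Ideal (𝓞 K)))
    (hT : ∀ P ∈ T, P.IsPrime ∧ P ≠ ⊥) :
    ∑ P ∈ T, wt s P ^ 2 ≤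
      (Module.finrank ℚ K : ℝ) * ∑' p : Nat.Primes, ((p : ℕ) : ℝ) ^ (-2 : ℝ) :=
  (Finset.sum_le_sum fun P hP => wt_sq_le_pbelow K hs (hT P hP).1 (hT P hP).2).trans
    (sum_pbelow_le K T hT)

theorem sum_wt_le {s : ℝ} (hs : 1 < s) (T : Finset (Ideal (𝓞 K)))
    (hT : ∀ P ∈ T, P.IsPrime ∧ P ≠ ⊥) :
    ∑ P ∈ T, wt s P ≤ (∑' p : Nat.Primes, (degOneCount K p : ℝ) * ((p : ℕ) : ℝ) ^ (-s)) +
      (Module.finrank ℚ K : ℝ) * ∑' p : Nat.Primes, ((p : ℕ) : ℝ) ^ (-2 : ℝ) := by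
  classical
  have hpt : ∀ P ∈ T, wt s P ≤ (if (Ideal.absNorm P).Prime then (Ideal.absNorm P : ℝ) ^ (-s) else 0) +
      ((pbelow K P : ℕ) : ℝ) ^ (-2 : ℝ) := by
    intro P hP
    by_cases hpr : (Ideal.absNorm P).Prime
    · rw [if_pos hpr]
      have : 0 ≤ ((pbelow K P : ℕ) : ℝ) ^ (-2 : ℝ) := Real.rpow_nonneg (Nat.cast_nonneg _) _
      unfold wt
      linarith
    · rw [if_neg hpr, zero_add]
      obtain ⟨hp, -, f, hf, hN⟩ := pbelow_spec K (hT P hP).1 (hT P hP).2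
      have hf2 : 2 ≤ f := by
        by_contra hlt
        have : f = 1 := by omega
        rw [this, pow_one] at hN
        exact hpr (hN ▸ hp)
      have hp1 : (1 : ℝ) ≤ ((pbelow K P : ℕ) : ℝ) := by exact_mod_cast hp.one_lt.le
      have hpN : ((pbelow K P : ℕ) : ℝ) ^ 2 ≤ (Ideal.absNorm P : ℝ) := by
        rw [hN]
        exact_mod_cast Nat.pow_le_pow_right hp.pos hf2
      have hN1 : (1 : ℝ) ≤ (Ideal.absNorm P : ℝ) := le_trans (one_le_pow₀ hp1) hpN
      unfold wt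
      calc (Ideal.absNorm P : ℝ) ^ (-s) ≤ (Ideal.absNorm P : ℝ) ^ (-1 : ℝ) :=
            Real.rpow_le_rpow_of_exponent_le hN1 (by linarith)
        _ ≤ (((pbelow K P : ℕ) : ℝ) ^ 2) ^ (-1 : ℝ) :=
            Real.rpow_le_rpow_of_nonpos (by positivity) hpN (by norm_num)
        _ = ((pbelow K P : ℕ) : ℝ) ^ (-2 : ℝ) := by
            rw [← Real.rpow_natCast, ← Real.rpow_mul (by linarith)]
            norm_num
  refine (Finset.sum_le_sum hpt).trans ?_
  rw [Finset.sum_add_distrib]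
  refine add_le_add ?_ (sum_pbelow_le K T hT)
  rw [← Finset.sum_filter]
  rw [Finset.sum_comp (fun n : ℕ => (n : ℝ) ^ (-s)) (fun P : Ideal (𝓞 K) => Ideal.absNorm P)]
  set T₁ := T.filter (fun P => (Ideal.absNorm P).Prime) with hT₁
  calc ∑ n ∈ T₁.image (fun P : Ideal (𝓞 K) => Ideal.absNorm P),
        (T₁.filter (fun P => Ideal.absNorm P = n)).card • (n : ℝ) ^ (-s)
      ≤ ∑ n ∈ T₁.image (fun P : Ideal (𝓞 K) => Ideal.absNorm P),
          (degOneCount K n : ℝ) * (n : ℝ) ^ (-s) := by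
        refine Finset.sum_le_sum fun n hn => ?_
        obtain ⟨P, hP, rfl⟩ := Finset.mem_image.mp hn
        have hpr : (Ideal.absNorm P).Prime := (Finset.mem_filter.mp hP).2
        rw [nsmul_eq_mul]
        refine mul_le_mul_of_nonneg_right ?_ (Real.rpow_nonneg (Nat.cast_nonneg _) _)
        rw [degOneCount_eq_card_ideal K hpr, Nat.cast_le]
        have hfin := Ideal.finite_setOfPred_absNorm_eq (S := 𝓞 K) (Ideal.absNorm P)
        have hsub : ((T₁.filter (fun Q => Ideal.absNorm Q = Ideal.absNorm P) : Finset _) : Set _) ⊆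
            {I : Ideal (𝓞 K) | Ideal.absNorm I = Ideal.absNorm P} := by
          intro Q hQ
          exact (Finset.mem_filter.mp hQ).2
        have := Set.ncard_le_ncard hsub hfin
        rw [Set.ncard_coe_finset] at this
        rw [show Nat.card {I : Ideal (𝓞 K) // Ideal.absNorm I = Ideal.absNorm P} =
          Set.ncard {I : Ideal (𝓞 K) | Ideal.absNorm I = Ideal.absNorm P} from
            Nat.card_coe_set_eq _]
        exact this
    _ ≤ ∑' p : Nat.Primes, (degOneCount K p : ℝ) * ((p : ℕ) : ℝ) ^ (-s) := by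
        refine sum_le_tsum_primes (fun n : ℕ => (degOneCount K n : ℝ) * (n : ℝ) ^ (-s))
          (fun p => mul_nonneg (Nat.cast_nonneg _) (Real.rpow_nonneg (Nat.cast_nonneg _) _))
          (summable_degOneCount K hs) _ ?_
        intro n hn
        obtain ⟨P, hP, rfl⟩ := Finset.mem_image.mp hn
        exact (Finset.mem_filter.mp hP).2


theorem exists_primes_finset (s : ℝ) (F : Finset Nat.Primes) :
    ∃ T : Finset (Ideal (𝓞 K)), (∀ P ∈ T, P.IsPrime ∧ P ≠ ⊥) ∧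
      ∑ P ∈ T, wt s P = ∑ p ∈ F, (degOneCount K p : ℝ) * ((p : ℕ) : ℝ) ^ (-s) := by
  classical
  let t : Nat.Primes → Finset (Ideal (𝓞 K)) := fun p =>
    (Ideal.finite_setOfPred_absNorm_eq (S := 𝓞 K) (p : ℕ)).toFinset
  have ht : ∀ (p : Nat.Primes) (P : Ideal (𝓞 K)), P ∈ t p ↔ Ideal.absNorm P = (p : ℕ) := by
    intro p P
    show P ∈ (Ideal.finite_setOfPred_absNorm_eq (S := 𝓞 K) (p : ℕ)).toFinset ↔ _
    rw [Set.Finite.mem_toFinset]
    rfl
  refine ⟨F.biUnion t, ?_, ?_⟩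
  · intro P hP
    obtain ⟨p, -, hPp⟩ := Finset.mem_biUnion.mp hP
    rw [ht] at hPp
    refine ⟨Ideal.isPrime_of_irreducible_absNorm (hPp ▸ p.2.prime.irreducible), ?_⟩
    intro h
    rw [h, Ideal.absNorm_bot] at hPp
    exact p.2.ne_zero hPp.symm
  · rw [Finset.sum_biUnion]
    · refine Finset.sum_congr rfl fun p _ => ?_
      have h1 : ∀ P ∈ t p, wt s P = ((p : ℕ) : ℝ) ^ (-s) := by
        intro P hP
        rw [ht] at hP
        unfold wt
        rw [hP]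
      rw [Finset.sum_congr rfl h1, Finset.sum_const, nsmul_eq_mul]
      congr 1
      rw [degOneCount_eq_card_ideal K p.2]
      have hfin := Ideal.finite_setOfPred_absNorm_eq (S := 𝓞 K) (p : ℕ)
      rw [show Nat.card {I : Ideal (𝓞 K) // Ideal.absNorm I = (p : ℕ)} =
          Set.ncard {I : Ideal (𝓞 K) | Ideal.absNorm I = (p : ℕ)} from Nat.card_coe_set_eq _,
        Set.ncard_eq_toFinset_card _ hfin]
    · intro p _ q _ hpq
      rw [Function.onFun, Finset.disjoint_left]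
      intro P hPp hPq
      rw [ht] at hPp hPq
      exact hpq (Subtype.ext (hPp.symm.trans hPq))

/-- bounds near the pole -/
theorem exists_pole_bounds : ∃ δ : ℝ, 0 < δ ∧ ∃ c₁ c₂ : ℝ, 0 < c₁ ∧ 0 < c₂ ∧
    ∀ s : ℝ, 1 < s → s < 1 + δ →
      c₁ ≤ (s - 1) * ∑' I : Ideal (𝓞 K), wt s I ∧ (s - 1) * ∑' I : Ideal (𝓞 K), wt s I ≤ c₂ := by
  have hlim := tendsto_sub_one_mul_dedekindZeta_nhdsGT K
  have hpos := dedekindZeta_residue_pos K
  have hlim' : Tendsto (fun s : ℝ => (s - 1) * ∑' I : Ideal (𝓞 K), wt s I) (𝓝[>] 1)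
      (𝓝 (dedekindZeta_residue K)) := by
    have h1 := (Complex.continuous_re.tendsto _).comp hlim
    rw [Complex.ofReal_re] at h1
    refine h1.congr' ?_
    filter_upwards [self_mem_nhdsWithin] with s hs
    have hs1 : (1 : ℝ) < s := hs
    show (((s : ℂ) - 1) * dedekindZeta K s).re = _
    rw [← tsum_idealCount_mul K hs1, ← tsum_wt_eq K hs1, ← Complex.ofReal_one,
      ← Complex.ofReal_sub, ← Complex.ofReal_mul, Complex.ofReal_re]
  have hev : ∀ᶠ s in 𝓝[>] (1 : ℝ), (s - 1) * ∑' I : Ideal (𝓞 K), wt s I ∈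
      Set.Ioo (dedekindZeta_residue K / 2) (2 * dedekindZeta_residue K) :=
    hlim'.eventually (Ioo_mem_nhds (by linarith) (by linarith))
  obtain ⟨u, hu, hsub⟩ := mem_nhdsGT_iff_exists_Ioo_subset.mp hev
  refine ⟨u - 1, by linarith [show (1 : ℝ) < u from hu], dedekindZeta_residue K / 2,
    2 * dedekindZeta_residue K, by linarith, by linarith, fun s hs1 hs2 => ?_⟩
  have := hsub ⟨hs1, by linarith⟩
  exact ⟨this.1.le, this.2.le⟩


theorem inv_one_sub_le_exp {x : ℝ} (h0 : 0 ≤ x) (h1 : x ≤ 1 / 2) :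
    (1 - x)⁻¹ ≤ Real.exp (x + 2 * x ^ 2) := by
  have h2 : (1 - x)⁻¹ ≤ x + 2 * x ^ 2 + 1 := by
    rw [inv_le_iff_one_le_mul₀ (by linarith)]
    nlinarith [mul_nonneg (mul_nonneg h0 h0) (by linarith : (0 : ℝ) ≤ 1 - 2 * x)]
  exact h2.trans (Real.add_one_le_exp _)

theorem exp_sub_sq_le {x : ℝ} (h0 : 0 ≤ x) : Real.exp (x - x ^ 2) ≤ 1 + x := by
  have h1 : 1 - (x - x ^ 2) ≤ Real.exp (-(x - x ^ 2)) := by
    linarith [Real.add_one_le_exp (-(x - x ^ 2))]
  have hpos : 0 < Real.exp (x - x ^ 2) := Real.exp_pos _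
  have h2 : Real.exp (x - x ^ 2) * (1 - (x - x ^ 2)) ≤ 1 := by
    calc Real.exp (x - x ^ 2) * (1 - (x - x ^ 2))
        ≤ Real.exp (x - x ^ 2) * Real.exp (-(x - x ^ 2)) :=
          mul_le_mul_of_nonneg_left h1 hpos.le
      _ = 1 := by rw [← Real.exp_add, add_neg_cancel, Real.exp_zero]
  have h3 : 0 < 1 - (x - x ^ 2) := by nlinarith [sq_nonneg (x - 1 / 2)]
  have h4 : Real.exp (x - x ^ 2) * (1 - (x - x ^ 2)) ≤ (1 + x) * (1 - (x - x ^ 2)) := by
    have : (1 : ℝ) ≤ (1 + x) * (1 - (x - x ^ 2)) := by nlinarith [pow_nonneg h0 3]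
    linarith
  exact le_of_mul_le_mul_right h4 h3

/-- **Package A.** -/
theorem primeSum_asymp (E : Type*) [Field E] [NumberField E] :
    ∃ C δ : ℝ, 0 < δ ∧ ∀ s : ℝ, 1 < s → s < 1 + δ →
      Summable (fun p : Nat.Primes => (degOneCount E p : ℝ) * (p : ℝ) ^ (-s)) ∧
      |∑' p : Nat.Primes, (degOneCount E p : ℝ) * (p : ℝ) ^ (-s) - Real.log (1 / (s - 1))| ≤ C := by
  classical
  obtain ⟨δ, hδ, c₁, c₂, hc₁, hc₂, hpole⟩ := exists_pole_bounds E
  set m : ℝ := (Module.finrank ℚ E : ℝ) with hm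
  set E2 : ℝ := ∑' p : Nat.Primes, ((p : ℕ) : ℝ) ^ (-2 : ℝ) with hE2
  have hm0 : 0 ≤ m := Nat.cast_nonneg _
  have hE20 : 0 ≤ E2 := tsum_nonneg fun p => Real.rpow_nonneg (Nat.cast_nonneg _) _
  have hmE : 0 ≤ m * E2 := mul_nonneg hm0 hE20
  refine ⟨3 * (m * E2) + |Real.log c₁| + |Real.log c₂|, δ, hδ, fun s hs1 hs2 => ?_⟩
  have hsum := summable_degOneCount E hs1
  refine ⟨hsum, ?_⟩
  set D : ℝ := ∑' p : Nat.Primes, (degOneCount E p : ℝ) * ((p : ℕ) : ℝ) ^ (-s) with hD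
  set Z : ℝ := ∑' I : Ideal (𝓞 E), wt s I with hZ
  have hZ1 : 1 ≤ Z := one_le_tsum_wt E hs1
  have hZpos : 0 < Z := by linarith
  -- upper bound
  have hupper : Z ≤ Real.exp (D + 3 * (m * E2)) := by
    refine (summable_wt E hs1).tsum_le_of_sum_le fun 𝒜 => ?_
    obtain ⟨T, hT, hle⟩ := sum_wt_le_prod hs1.le 𝒜
    refine hle.trans ?_
    calc ∏ P ∈ T, (1 - wt s P)⁻¹ ≤ ∏ P ∈ T, Real.exp (wt s P + 2 * wt s P ^ 2) := by
          refine Finset.prod_le_prod (fun P hP => ?_) (fun P hP => ?_)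
          · have := wt_le_half hs1.le (hT P hP).1 (hT P hP).2
            exact inv_nonneg.mpr (by linarith)
          · exact inv_one_sub_le_exp (wt_nonneg s P) (wt_le_half hs1.le (hT P hP).1 (hT P hP).2)
      _ = Real.exp (∑ P ∈ T, wt s P + 2 * ∑ P ∈ T, wt s P ^ 2) := by
          rw [← Real.exp_sum, Finset.sum_add_distrib, Finset.mul_sum]
      _ ≤ Real.exp (D + 3 * (m * E2)) := by
          refine Real.exp_le_exp.mpr ?_
          have h1 := sum_wt_le E hs1 T hT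
          have h2 := sum_wt_sq_le E hs1.le T hT
          linarith
  -- lower bound
  have hlower : D ≤ Real.log Z + m * E2 := by
    refine hsum.tsum_le_of_sum_le fun F => ?_
    obtain ⟨T, hT, hTsum⟩ := exists_primes_finset E s F
    rw [← hTsum]
    have h1 : Real.exp (∑ P ∈ T, (wt s P - wt s P ^ 2)) ≤ Z := by
      rw [Real.exp_sum]
      calc ∏ P ∈ T, Real.exp (wt s P - wt s P ^ 2) ≤ ∏ P ∈ T, (1 + wt s P) :=
            Finset.prod_le_prod (fun P _ => (Real.exp_pos _).le)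
              (fun P _ => exp_sub_sq_le (wt_nonneg s P))
        _ ≤ Z := prod_one_add_wt_le E hs1 T hT
    have h2 : ∑ P ∈ T, (wt s P - wt s P ^ 2) ≤ Real.log Z :=
      (Real.le_log_iff_exp_le hZpos).mpr h1
    rw [Finset.sum_sub_distrib] at h2
    have h3 := sum_wt_sq_le E hs1.le T hT
    linarith
  have hlogZ : Real.log Z ≤ D + 3 * (m * E2) := (Real.log_le_iff_le_exp hZpos).mpr hupper
  -- the pole
  obtain ⟨hp1, hp2⟩ := hpole s hs1 hs2
  have hs0 : 0 < s - 1 := by linarith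
  have hlog : Real.log ((s - 1) * Z) = Real.log Z - Real.log (1 / (s - 1)) := by
    rw [Real.log_mul hs0.ne' hZpos.ne', one_div, Real.log_inv]
    ring
  have hl1 : Real.log c₁ ≤ Real.log ((s - 1) * Z) := Real.log_le_log hc₁ hp1
  have hl2 : Real.log ((s - 1) * Z) ≤ Real.log c₂ :=
    Real.log_le_log (mul_pos hs0 hZpos) hp2
  rw [abs_le]
  have ha1 := neg_abs_le (Real.log c₁)
  have ha2 := le_abs_self (Real.log c₂)
  have ha3 := abs_nonneg (Real.log c₁)
  have ha4 := abs_nonneg (Real.log c₂)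
  constructor <;> linarith

end P


end Fermat.Agent.Cheb
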