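import Mathlib
import Fermat.Agent.Cheb.Defs
import Fermat.Agent.Cheb.Zeta
import Fermat.Agent.Cheb.Hom
import Fermat.Agent.Cheb.Group

/-!
# Package F: the Frobenius density theorem (existence form) for a Galois number field

For `L/ℚ` finite Galois, `σ ∈ Gal(L/ℚ)` and a finite set `S` of primes there is a prime `p ∉ S`
all of whose Frobenius elements are conjugate to a generator of the cyclic group `⟨σ⟩`.
-/

namespace Fermat.Agent.Cheb

open NumberField

/-- **Package F.** Frobenius density theorem, existence form. -/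
theorem exists_prime_frobenius_conj (L : Type*) [Field L] [NumberField L] [IsGalois ℚ L]
    (σ : L ≃ₐ[ℚ] L) (S : Finset ℕ) :
    ∃ p : ℕ, p.Prime ∧ p ∉ S ∧
      ∀ (P : Ideal (𝓞 L)), P.IsPrime → (p : 𝓞 L) ∈ P →
      ∀ φ : L ≃ₐ[ℚ] L, (∀ x : 𝓞 L, φ • x - x ^ p ∈ P) →
        ∃ (g : L ≃ₐ[ℚ] L) (k : ℕ), k.Coprime (orderOf σ) ∧ g⁻¹ * φ * g = σ ^ k := by
  classical
  by_contra hcon
  push Not at hcon
  have hnpos : 0 < orderOf σ := orderOf_pos σ
  choose S₀ hS₀ using fun d : ℕ => degOneCount_fixedField_eq L (Subgroup.zpowers (σ ^ d))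
  choose C δ hδ hA using fun d : ℕ =>
    primeSum_asymp (IntermediateField.fixedField (Subgroup.zpowers (σ ^ d)))
  set r : ℕ → ℕ → ℕ := fun d p =>
    degOneCount (IntermediateField.fixedField (Subgroup.zpowers (σ ^ d))) p with hr
  set a : ℕ → ℝ := fun d =>
    (ArithmeticFunction.moebius d : ℝ) * ((orderOf σ / d : ℕ) : ℝ) with ha
  set c : ℕ → ℝ := fun p => ∑ d ∈ (orderOf σ).divisors, a d * (r d p : ℝ) with hc_def
  set S' : Finset ℕ := S ∪ (orderOf σ).divisors.biUnion S₀ with hS'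
  -- the combination vanishes at all primes outside `S'`
  have hc : ∀ p : ℕ, p.Prime → p ∉ S' → c p = 0 := by
    intro p hp hpS'
    have hpS : p ∉ S := fun h => hpS' (Finset.mem_union_left _ h)
    obtain ⟨P, hP, hpP, φ, hφ, hbad⟩ := hcon p hp hpS
    have h1 : ∀ d ∈ (orderOf σ).divisors, r d p =
        Nat.card {q : (L ≃ₐ[ℚ] L) ⧸ Subgroup.zpowers (σ ^ d) // φ • q = q} := by
      intro d hd
      have hpd : p ∉ S₀ d := fun h =>
        hpS' (Finset.mem_union_right _ (Finset.mem_biUnion.mpr ⟨d, hd, h⟩))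
      exact hS₀ d p hp hpd P hP hpP φ hφ
    have h2 := moebius_fixed_sum σ φ
    have h3 : IsEmpty {g : L ≃ₐ[ℚ] L // ∃ k : ℕ, k.Coprime (orderOf σ) ∧ g⁻¹ * φ * g = σ ^ k} :=
      ⟨fun ⟨g, k, hk, hg⟩ => hbad g k hk hg⟩
    rw [Nat.card_of_isEmpty, Nat.cast_zero] at h2
    have h4 : (c p : ℝ) = ((∑ d ∈ (orderOf σ).divisors,
        (ArithmeticFunction.moebius d : ℤ) * ((orderOf σ / d : ℕ) : ℤ) *
        (Nat.card {q : (L ≃ₐ[ℚ] L) ⧸ Subgroup.zpowers (σ ^ d) // φ • q = q} : ℤ) : ℤ) : ℝ) := by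
      show ∑ d ∈ (orderOf σ).divisors, a d * (r d p : ℝ) = _
      rw [Int.cast_sum]
      refine Finset.sum_congr rfl fun d hd => ?_
      rw [h1 d hd, Int.cast_mul, Int.cast_mul, Int.cast_natCast, Int.cast_natCast]
    rw [h4, h2, Int.cast_zero]
  -- sum of the coefficients
  have hsum_a : ∑ d ∈ (orderOf σ).divisors, a d = ((orderOf σ).totient : ℝ) := by
    have h := moebius_sum_eq_totient (orderOf σ) hnpos
    have h' := congrArg (fun z : ℤ => (z : ℝ)) h
    simp only [Int.cast_sum, Int.cast_mul, Int.cast_natCast] at h'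
    exact h'
  have htot : (1 : ℝ) ≤ ((orderOf σ).totient : ℝ) := by
    exact_mod_cast Nat.totient_pos.mpr hnpos
  -- constants
  have hne : (orderOf σ).divisors.Nonempty := ⟨1, Nat.one_mem_divisors.mpr hnpos.ne'⟩
  set δ₀ : ℝ := (orderOf σ).divisors.inf' hne δ with hδ₀
  have hδ₀pos : 0 < δ₀ := by
    rw [hδ₀, Finset.lt_inf'_iff]
    exact fun d _ => hδ d
  set CC : ℝ := ∑ d ∈ (orderOf σ).divisors, |a d| * C d with hCC
  set SP : Finset Nat.Primes := S'.subtype Nat.Prime with hSP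
  set M : ℝ := ∑ p ∈ SP, |c (p : ℕ)| with hM
  have hMnn : 0 ≤ M := Finset.sum_nonneg fun _ _ => abs_nonneg _
  set ε : ℝ := min (δ₀ / 2) (Real.exp (-(CC + M + 1))) with hε
  have hεpos : 0 < ε := lt_min (by positivity) (Real.exp_pos _)
  set s : ℝ := 1 + ε with hs
  have hs1 : 1 < s := by rw [hs]; linarith
  have hsδ : ∀ d ∈ (orderOf σ).divisors, s < 1 + δ d := by
    intro d hd
    have h1 : δ₀ ≤ δ d := Finset.inf'_le _ hd
    have h2 : ε ≤ δ₀ / 2 := min_le_left _ _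
    rw [hs]; linarith
  set ℓ : ℝ := Real.log (1 / (s - 1)) with hℓ
  have hℓbig : CC + M + 1 ≤ ℓ := by
    have h1 : s - 1 = ε := by rw [hs]; ring
    have h2 : ε ≤ Real.exp (-(CC + M + 1)) := min_le_right _ _
    rw [hℓ, h1, one_div, Real.log_inv]
    have h3 : Real.log ε ≤ -(CC + M + 1) := by
      have := Real.log_le_log hεpos h2
      rwa [Real.log_exp] at this
    linarith
  -- the prime sums
  set f : ℕ → Nat.Primes → ℝ := fun d p => (r d p : ℝ) * ((p : ℕ) : ℝ) ^ (-s) with hf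
  have hfsum : ∀ d ∈ (orderOf σ).divisors, Summable (f d) := fun d hd =>
    (hA d s hs1 (hsδ d hd)).1
  have hfbd : ∀ d ∈ (orderOf σ).divisors, |∑' p, f d p - ℓ| ≤ C d := fun d hd =>
    (hA d s hs1 (hsδ d hd)).2
  set T : ℝ := ∑ d ∈ (orderOf σ).divisors, a d * ∑' p, f d p with hT
  have hT1 : |T - ((orderOf σ).totient : ℝ) * ℓ| ≤ CC := by
    have h1 : T - ((orderOf σ).totient : ℝ) * ℓ =
        ∑ d ∈ (orderOf σ).divisors, a d * (∑' p, f d p - ℓ) := by
      rw [hT, ← hsum_a, Finset.sum_mul, ← Finset.sum_sub_distrib]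
      refine Finset.sum_congr rfl fun d _ => by ring
    rw [h1, hCC]
    refine (Finset.abs_sum_le_sum_abs _ _).trans (Finset.sum_le_sum fun d hd => ?_)
    rw [abs_mul]
    exact mul_le_mul_of_nonneg_left (hfbd d hd) (abs_nonneg _)
  have hT2 : T = ∑' p : Nat.Primes, c (p : ℕ) * ((p : ℕ) : ℝ) ^ (-s) := by
    have h1 : ∀ p : Nat.Primes, c (p : ℕ) * ((p : ℕ) : ℝ) ^ (-s) =
        ∑ d ∈ (orderOf σ).divisors, a d * f d p := by
      intro p
      rw [hc_def, Finset.sum_mul]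
      refine Finset.sum_congr rfl fun d _ => by rw [hf]; ring
    rw [tsum_congr h1, Summable.tsum_finsetSum (fun d hd => (hfsum d hd).mul_left (a d)), hT]
    refine Finset.sum_congr rfl fun d _ => ?_
    rw [tsum_mul_left]
  have hT3 : |T| ≤ M := by
    rw [hT2, tsum_eq_sum (s := SP), hM]
    · refine (Finset.abs_sum_le_sum_abs _ _).trans (Finset.sum_le_sum fun p _ => ?_)
      rw [abs_mul]
      have hp1 : (1 : ℝ) ≤ ((p : ℕ) : ℝ) := by exact_mod_cast p.2.one_lt.le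
      have h2 : |((p : ℕ) : ℝ) ^ (-s)| ≤ 1 := by
        rw [abs_of_nonneg (Real.rpow_nonneg (by linarith) _)]
        exact Real.rpow_le_one_of_one_le_of_nonpos hp1 (by linarith)
      calc |c (p : ℕ)| * |((p : ℕ) : ℝ) ^ (-s)| ≤ |c (p : ℕ)| * 1 :=
            mul_le_mul_of_nonneg_left h2 (abs_nonneg _)
        _ = |c (p : ℕ)| := mul_one _
    · intro p hp
      have hp' : (p : ℕ) ∉ S' := fun h => hp (Finset.mem_subtype.mpr h)
      rw [hc (p : ℕ) p.2 hp', zero_mul]
  -- contradiction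
  have hℓnn : 0 ≤ ℓ := by
    have hCCnn : 0 ≤ CC := (abs_nonneg _).trans hT1
    linarith
  have h1 : ((orderOf σ).totient : ℝ) * ℓ ≤ CC + M := by
    have h2 := abs_le.mp hT1
    have h3 := abs_le.mp hT3
    linarith [h2.1, h3.2]
  have h2 : ℓ ≤ ((orderOf σ).totient : ℝ) * ℓ := by
    have := mul_le_mul_of_nonneg_right htot hℓnn
    linarith
  linarith

end Fermat.Agent.Cheb
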