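import Mathlib
import Fermat.Prelude.Def_EllipticCurve_FrobeniusTrace
import Fermat.Prelude.Def_FLTPrelim_Ramification
import Fermat.Agent.S54.Frobenius
import Fermat.Agent.Cheb.Density

/-!
# Bridge: the Frobenius density theorem inside `AlgebraicClosure ℚ`

For every finite set `S` of primes, every finite subextension `L` of `ℚ̄/ℚ` and every
`σ ∈ Gal(ℚ̄/ℚ)` there are a prime `ℓ ∉ S`, a place `A` of `ℚ̄` over `ℓ`, a Frobenius element `φ`
at `A` and an exponent `k` with `φ ^ k = σ` on `L`.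
-/

set_option linter.style.haveILetI false

namespace Fermat.Agent.Cheb

open NumberField

open scoped Pointwise

section VS
variable {K : Type*} [Field K]

theorem vs_isIntegral_mem (A : ValuationSubring K) {x : K} (hx : IsIntegral ℤ x) : x ∈ A := by
  have h1 : IsIntegral A x := hx.tower_top
  obtain ⟨y, hy⟩ := IsIntegrallyClosed.algebraMap_eq_of_integral h1
  rw [← hy]
  exact y.2

theorem vs_mem_nonunits_iff (A : ValuationSubring K) (x : K) :
    x ∈ A.nonunits ↔ x = 0 ∨ x⁻¹ ∉ A := by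
  rw [ValuationSubring.mem_nonunits_iff]
  rcases eq_or_ne x 0 with rfl | hx
  · simp
  · rw [← A.valuation_le_one_iff, map_inv₀]
    have hv : 0 < A.valuation x := zero_lt_iff.mpr ((Valuation.ne_zero_iff _).mpr hx)
    constructor
    · intro h
      right
      rw [not_le]
      exact (one_lt_inv₀ hv).mpr h
    · rintro (h | h)
      · exact absurd h hx
      · rw [not_le] at h
        exact (one_lt_inv₀ hv).mp h

end VS

section Gal
variable {F L : Type*} [Field F] [Field L] [Algebra F L]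

theorem smul_mem_smul_nonunits (τ : L ≃ₐ[F] L) (A : ValuationSubring L) {y : L}
    (hy : y ∈ A.nonunits) : τ y ∈ (τ • A).nonunits := by
  rw [vs_mem_nonunits_iff] at hy ⊢
  rcases hy with rfl | hy
  · left
    exact map_zero τ
  · right
    intro h
    apply hy
    rw [ValuationSubring.mem_pointwise_smul_iff_inv_smul_mem] at h
    have h2 : τ⁻¹ • (τ y)⁻¹ = y⁻¹ := by
      show τ⁻¹ ((τ y)⁻¹) = y⁻¹
      rw [map_inv₀]
      congr 1
      exact τ.symm_apply_apply y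
    rwa [h2] at h

theorem isFrobeniusAt_iff (A : ValuationSubring L) (σ : L ≃ₐ[F] L) (q : ℕ) :
    A.IsFrobeniusAt σ q ↔ σ • A = A ∧ ∀ x ∈ A, σ x - x ^ q ∈ A.nonunits := by
  constructor
  · rintro ⟨hσ, h⟩
    refine ⟨MulAction.mem_stabilizer_iff.mp hσ, fun x hx => ?_⟩
    have := h (IsLocalRing.residue A ⟨x, hx⟩)
    rw [← IsLocalRing.ResidueField.residue_smul, ← map_pow, ← sub_eq_zero, ← map_sub,
      IsLocalRing.residue_eq_zero_iff, A.valuation_lt_one_iff] at this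
    rw [ValuationSubring.mem_nonunits_iff]
    exact this
  · rintro ⟨h1, h2⟩
    refine ⟨MulAction.mem_stabilizer_iff.mpr h1, fun r => ?_⟩
    obtain ⟨a, rfl⟩ := IsLocalRing.residue_surjective r
    rw [← IsLocalRing.ResidueField.residue_smul, ← map_pow, ← sub_eq_zero, ← map_sub,
      IsLocalRing.residue_eq_zero_iff, A.valuation_lt_one_iff]
    have := h2 a a.2
    rw [ValuationSubring.mem_nonunits_iff] at this
    exact this

theorem isFrobeniusAt_conj (A : ValuationSubring L) (σ τ : L ≃ₐ[F] L) (q : ℕ)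
    (h : A.IsFrobeniusAt σ q) : (τ • A).IsFrobeniusAt (τ * σ * τ⁻¹) q := by
  rw [isFrobeniusAt_iff] at h ⊢
  obtain ⟨h1, h2⟩ := h
  refine ⟨?_, fun x hx => ?_⟩
  · rw [mul_smul, mul_smul, inv_smul_smul, h1]
  · rw [ValuationSubring.mem_pointwise_smul_iff_inv_smul_mem] at hx
    have h3 := smul_mem_smul_nonunits τ A (h2 _ hx)
    have h4 : τ (σ (τ⁻¹ • x) - (τ⁻¹ • x) ^ q) = (τ * σ * τ⁻¹) x - x ^ q := by
      rw [map_sub, map_pow]
      have : τ (τ⁻¹ • x) = x := τ.apply_symm_apply x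
      rw [this]
      rfl
    rwa [h4] at h3

end Gal


/-- **Bridge, strong form.** `φ` and `σ` generate the same cyclic group on `L`:
`φ = σ ^ k` and `φ ^ m = σ` on `L`. -/
theorem exists_frobenius_pow_pow_eq (S : Finset ℕ)
    (L : IntermediateField ℚ (AlgebraicClosure ℚ))
    [FiniteDimensional ℚ L] (σ : AlgebraicClosure ℚ ≃ₐ[ℚ] AlgebraicClosure ℚ) :
    ∃ (ℓ : ℕ) (A : ValuationSubring (AlgebraicClosure ℚ))
      (φ : AlgebraicClosure ℚ ≃ₐ[ℚ] AlgebraicClosure ℚ) (k m : ℕ),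
      ℓ.Prime ∧ ℓ ∉ S ∧ A.LiesOverPrime ℓ ∧ A.IsFrobeniusAt φ ℓ ∧
        (∀ x ∈ L, φ x = (σ ^ k) x) ∧ ∀ x ∈ L, (φ ^ m) x = σ x := by
  classical
  let N : IntermediateField ℚ (AlgebraicClosure ℚ) :=
    IntermediateField.normalClosure ℚ L (AlgebraicClosure ℚ)
  haveI hNn : Normal ℚ N := normalClosure.normal ℚ L (AlgebraicClosure ℚ)
  haveI hNf : FiniteDimensional ℚ N :=
    normalClosure.is_finiteDimensional ℚ L (AlgebraicClosure ℚ)
  haveI hNnf : NumberField N := NumberField.of_module_finite ℚ N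
  haveI hNg : IsGalois ℚ N := ⟨⟩
  have hLN : L ≤ N := IntermediateField.le_normalClosure L
  let σN : N ≃ₐ[ℚ] N := AlgEquiv.restrictNormal σ N
  obtain ⟨p, hp, hpS, hF⟩ := exists_prime_frobenius_conj N σN S
  obtain ⟨A, φ, hAp, hAφ⟩ := Fermat.Agent.S54.exists_frobenius p hp
  have hint : ∀ x : 𝓞 N, ((x : N) : AlgebraicClosure ℚ) ∈ A := fun x =>
    vs_isIntegral_mem A ((RingOfIntegers.isIntegral_coe x).map
      (IsScalarTower.toAlgHom ℤ N (AlgebraicClosure ℚ)))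
  let f : 𝓞 N →+* A.toSubring :=
    ((algebraMap N (AlgebraicClosure ℚ)).comp (algebraMap (𝓞 N) N)).codRestrict A.toSubring hint
  let P : Ideal (𝓞 N) := Ideal.comap f (IsLocalRing.maximalIdeal A)
  have hPprime : P.IsPrime := Ideal.comap_isPrime f _
  have hPmem : ∀ x : 𝓞 N, x ∈ P ↔ ((x : N) : AlgebraicClosure ℚ) ∈ A.nonunits := by
    intro x
    rw [ValuationSubring.mem_nonunits_iff_exists_mem_maximalIdeal]
    constructor
    · intro h
      exact ⟨hint x, h⟩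
    · rintro ⟨_, h⟩
      exact h
  have hpP : (p : 𝓞 N) ∈ P := by
    rw [hPmem]
    have h1 : (((p : 𝓞 N) : N) : AlgebraicClosure ℚ) = (p : AlgebraicClosure ℚ) := by simp
    rw [h1]
    exact hAp
  let φN : N ≃ₐ[ℚ] N := AlgEquiv.restrictNormal φ N
  have hφN : ∀ x : 𝓞 N, φN • x - x ^ p ∈ P := by
    intro x
    rw [hPmem]
    have h2 := ((isFrobeniusAt_iff A φ p).mp hAφ).2 _ (hint x)
    have h3 : (((φN • x - x ^ p : 𝓞 N) : N) : AlgebraicClosure ℚ) =
        φ ((x : N) : AlgebraicClosure ℚ) - ((x : N) : AlgebraicClosure ℚ) ^ p := by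
      have h4 := AlgEquiv.restrictNormal_commutes φ N (x : N)
      have h5 : (((φN • x - x ^ p : 𝓞 N) : N) : AlgebraicClosure ℚ) =
          algebraMap N (AlgebraicClosure ℚ) (φN (x : N)) -
            (algebraMap N (AlgebraicClosure ℚ) (x : N)) ^ p := by
        simp
        rfl
      rw [h5, h4]
      rfl
    rw [h3]
    exact h2
  obtain ⟨g, k, hk, hg⟩ := hF P hPprime hpP φN hφN
  let gt : AlgebraicClosure ℚ ≃ₐ[ℚ] AlgebraicClosure ℚ := AlgEquiv.liftNormal g (AlgebraicClosure ℚ)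
  have hgt : AlgEquiv.restrictNormal gt N = g := AlgEquiv.restrict_liftNormal _ g
  obtain ⟨m, hm⟩ : ∃ m : ℕ, σN ^ (k * m) = σN := by
    obtain ⟨m, -, hm⟩ := Nat.exists_mul_mod_eq_of_coprime 1 hk (orderOf_pos σN).ne'
    refine ⟨m, ?_⟩
    rw [← pow_mod_orderOf, hm, pow_mod_orderOf, pow_one]
  have hresφ : AlgEquiv.restrictNormal (gt⁻¹ * φ * gt) N = σN ^ k := by
    have h1 : AlgEquiv.restrictNormal (gt⁻¹ * φ * gt) N =
        AlgEquiv.restrictNormalHom N (gt⁻¹ * φ * gt) := rfl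
    rw [h1, map_mul, map_mul, map_inv]
    have h2 : AlgEquiv.restrictNormalHom N gt = g := hgt
    have h3 : AlgEquiv.restrictNormalHom N φ = φN := rfl
    rw [h2, h3, hg]
  refine ⟨p, gt⁻¹ • A, gt⁻¹ * φ * gt, k, m, hp, hpS, ?_, ?_, ?_, ?_⟩
  · have h1 := smul_mem_smul_nonunits gt⁻¹ A hAp
    have h2 : gt⁻¹ ((p : ℕ) : AlgebraicClosure ℚ) = ((p : ℕ) : AlgebraicClosure ℚ) := map_natCast _ p
    rw [h2] at h1
    exact h1
  · have h1 := isFrobeniusAt_conj A φ gt⁻¹ p hAφ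
    rwa [inv_inv] at h1
  · intro x hx
    have hxN : x ∈ N := hLN hx
    have h1 := AlgEquiv.restrictNormal_commutes (gt⁻¹ * φ * gt) N ⟨x, hxN⟩
    rw [hresφ] at h1
    have h2 := AlgEquiv.restrictNormal_commutes (σ ^ k) N ⟨x, hxN⟩
    have h3 : AlgEquiv.restrictNormal (σ ^ k) N = σN ^ k :=
      map_pow (AlgEquiv.restrictNormalHom N) σ k
    rw [h3] at h2
    exact h1.symm.trans h2
  · intro x hx
    have hxN : x ∈ N := hLN hx
    have hres : AlgEquiv.restrictNormal ((gt⁻¹ * φ * gt) ^ m) N = σN := by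
      have h1 : AlgEquiv.restrictNormal ((gt⁻¹ * φ * gt) ^ m) N =
          AlgEquiv.restrictNormalHom N ((gt⁻¹ * φ * gt) ^ m) := rfl
      rw [h1, map_pow, map_mul, map_mul, map_inv]
      have h2 : AlgEquiv.restrictNormalHom N gt = g := hgt
      have h3 : AlgEquiv.restrictNormalHom N φ = φN := rfl
      rw [h2, h3, hg, ← pow_mul, hm]
    have h1 := AlgEquiv.restrictNormal_commutes ((gt⁻¹ * φ * gt) ^ m) N ⟨x, hxN⟩
    rw [hres] at h1
    have h2 := AlgEquiv.restrictNormal_commutes σ N ⟨x, hxN⟩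
    exact h1.symm.trans h2

/-- **Bridge.** -/
theorem exists_frobenius_pow_eq (S : Finset ℕ) (L : IntermediateField ℚ (AlgebraicClosure ℚ))
    [FiniteDimensional ℚ L] (σ : AlgebraicClosure ℚ ≃ₐ[ℚ] AlgebraicClosure ℚ) :
    ∃ (ℓ : ℕ) (A : ValuationSubring (AlgebraicClosure ℚ))
      (φ : AlgebraicClosure ℚ ≃ₐ[ℚ] AlgebraicClosure ℚ) (k : ℕ),
      ℓ.Prime ∧ ℓ ∉ S ∧ A.LiesOverPrime ℓ ∧ A.IsFrobeniusAt φ ℓ ∧ ∀ x ∈ L, (φ ^ k) x = σ x := by
  obtain ⟨ℓ, A, φ, -, m, h1, h2, h3, h4, -, h6⟩ := exists_frobenius_pow_pow_eq S L σ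
  exact ⟨ℓ, A, φ, m, h1, h2, h3, h4, h6⟩

/-- **Bridge, relative form.** If `σ` fixes a subfield `L₀ ≤ L` pointwise, the Frobenius element
can be chosen to fix `L₀` pointwise as well (so it is a Frobenius element of a degree-one prime of
`L₀`), with `φ ^ m = σ` on `L`. -/
theorem exists_frobenius_fixing (S : Finset ℕ) (L₀ L : IntermediateField ℚ (AlgebraicClosure ℚ))
    [FiniteDimensional ℚ L] (hL : L₀ ≤ L) (σ : AlgebraicClosure ℚ ≃ₐ[ℚ] AlgebraicClosure ℚ)
    (hσ : ∀ x ∈ L₀, σ x = x) :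
    ∃ (ℓ : ℕ) (A : ValuationSubring (AlgebraicClosure ℚ))
      (φ : AlgebraicClosure ℚ ≃ₐ[ℚ] AlgebraicClosure ℚ) (m : ℕ),
      ℓ.Prime ∧ ℓ ∉ S ∧ A.LiesOverPrime ℓ ∧ A.IsFrobeniusAt φ ℓ ∧
        (∀ x ∈ L₀, φ x = x) ∧ ∀ x ∈ L, (φ ^ m) x = σ x := by
  obtain ⟨ℓ, A, φ, k, m, h1, h2, h3, h4, h5, h6⟩ := exists_frobenius_pow_pow_eq S L σ
  refine ⟨ℓ, A, φ, m, h1, h2, h3, h4, fun x hx => ?_, h6⟩
  rw [h5 x (hL hx)]
  have hfix : ∀ n : ℕ, (σ ^ n) x = x := by
    intro n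
    induction n with
    | zero => rfl
    | succ n ih =>
      rw [pow_succ]
      show (σ ^ n) (σ x) = x
      rw [hσ x hx, ih]
  exact hfix k

end Fermat.Agent.Cheb
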