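import Mathlib

/-!
# Auxiliary matrix lemmas for Carayol's lemma (rank two)

* `burnside_two`: a multiplicative family of `2 × 2` matrices over an algebraically closed field
  without a common invariant line spans the full matrix algebra.
-/

namespace Fermat.Agent.Cheb.R2

open Matrix

section Burnside

variable {K : Type*} [Field K]

/-- The `2 × 2` determinant of two vectors. -/
def dd (v w : Fin 2 → K) : K := v 0 * w 1 - v 1 * w 0

lemma exists_smul_of_dd_eq_zero {v w : Fin 2 → K} (hv : v ≠ 0) (h : dd v w = 0) :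
    ∃ c : K, w = c • v := by
  unfold dd at h
  by_cases h0 : v 0 = 0
  · have h1 : v 1 ≠ 0 := by
      intro h1
      apply hv
      funext i
      fin_cases i
      · exact h0
      · exact h1
    refine ⟨w 1 / v 1, ?_⟩
    funext i
    fin_cases i
    · simp only [Fin.zero_eta, Pi.smul_apply, smul_eq_mul, h0, mul_zero]
      rw [h0, zero_mul, zero_sub, neg_eq_zero] at h
      exact (mul_eq_zero.mp h).resolve_left h1
    · simp only [Fin.mk_one, Pi.smul_apply, smul_eq_mul]
      field_simp
  · refine ⟨w 0 / v 0, ?_⟩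
    funext i
    fin_cases i
    · simp only [Fin.zero_eta, Pi.smul_apply, smul_eq_mul]
      field_simp
    · simp only [Fin.mk_one, Pi.smul_apply, smul_eq_mul]
      field_simp
      linear_combination h

lemma eq_add_of_dd_ne_zero {v w : Fin 2 → K} (h : dd v w ≠ 0) (a : Fin 2 → K) :
    a = (dd a w / dd v w) • v + (dd v a / dd v w) • w := by
  funext i
  fin_cases i
  · simp only [Fin.zero_eta, Pi.add_apply, Pi.smul_apply, smul_eq_mul]
    field_simp
    unfold dd
    ring
  · simp only [Fin.mk_one, Pi.add_apply, Pi.smul_apply, smul_eq_mul]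
    field_simp
    unfold dd
    ring

lemma submodule_eq_top_of_dd_ne_zero {U : Submodule K (Fin 2 → K)} {v w : Fin 2 → K}
    (hv : v ∈ U) (hw : w ∈ U) (h : dd v w ≠ 0) : U = ⊤ := by
  rw [eq_top_iff]
  intro a _
  rw [eq_add_of_dd_ne_zero h a]
  exact U.add_mem (U.smul_mem _ hv) (U.smul_mem _ hw)

/-- **Burnside** for `2 × 2` matrices over an algebraically closed field. -/
theorem burnside_two [IsAlgClosed K] {G : Type*} [Monoid G] (S : G →* Matrix (Fin 2) (Fin 2) K)
    (hirr : ∀ v : Fin 2 → K, v ≠ 0 → ∃ g, dd v (S g *ᵥ v) ≠ 0) :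
    Submodule.span K (Set.range S) = ⊤ := by
  set B : Submodule K (Matrix (Fin 2) (Fin 2) K) := Submodule.span K (Set.range S) with hB
  have hS : ∀ g, S g ∈ B := fun g => Submodule.subset_span ⟨g, rfl⟩
  -- `B` is stable under left and right multiplication by `S g`
  have hleft : ∀ g, ∀ x ∈ B, S g * x ∈ B := by
    intro g x hx
    refine Submodule.span_induction (p := fun x _ => S g * x ∈ B) ?_ ?_ ?_ ?_ hx
    · rintro _ ⟨h, rfl⟩
      rw [← map_mul]
      exact hS _
    · rw [mul_zero]; exact B.zero_mem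
    · intro x y _ _ hx hy
      rw [mul_add]; exact B.add_mem hx hy
    · intro c x _ hx
      rw [Matrix.mul_smul]; exact B.smul_mem _ hx
  have hright : ∀ g, ∀ x ∈ B, x * S g ∈ B := by
    intro g x hx
    refine Submodule.span_induction (p := fun x _ => x * S g ∈ B) ?_ ?_ ?_ ?_ hx
    · rintro _ ⟨h, rfl⟩
      rw [← map_mul]
      exact hS _
    · rw [zero_mul]; exact B.zero_mem
    · intro x y _ _ hx hy
      rw [add_mul]; exact B.add_mem hx hy
    · intro c x _ hx
      rw [Matrix.smul_mul]; exact B.smul_mem _ hx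
  -- a rank one element of `B`
  obtain ⟨u, l, hu, hl, hul⟩ : ∃ u l : Fin 2 → K, u ≠ 0 ∧ l ≠ 0 ∧ vecMulVec u l ∈ B := by
    have he : (![1, 0] : Fin 2 → K) ≠ 0 := by
      intro h
      have := congrFun h 0
      simp at this
    obtain ⟨g, hg⟩ := hirr ![1, 0] he
    set s := S g with hs
    have hs10 : s 1 0 ≠ 0 := by
      intro h
      apply hg
      simp [dd, Matrix.mulVec, dotProduct, Fin.sum_univ_two, h]
    -- an eigenvalue
    obtain ⟨lam, hlam⟩ : ∃ lam : K, lam * lam - (s 0 0 + s 1 1) * lam + (s 0 0 * s 1 1 - s 0 1 * s 1 0) = 0 := by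
      obtain ⟨lam, hlam⟩ := IsAlgClosed.exists_root
        (Polynomial.X ^ 2 - Polynomial.C (s 0 0 + s 1 1) * Polynomial.X +
          Polynomial.C (s 0 0 * s 1 1 - s 0 1 * s 1 0) : Polynomial K)
        (by
          have : (Polynomial.X ^ 2 - Polynomial.C (s 0 0 + s 1 1) * Polynomial.X +
            Polynomial.C (s 0 0 * s 1 1 - s 0 1 * s 1 0) : Polynomial K).degree = 2 := by
            compute_degree!
          rw [this]; decide)
      refine ⟨lam, ?_⟩
      simp only [Polynomial.IsRoot, Polynomial.eval_add, Polynomial.eval_sub, Polynomial.eval_pow,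
        Polynomial.eval_X, Polynomial.eval_mul, Polynomial.eval_C] at hlam
      linear_combination hlam
    have hb : s - lam • (1 : Matrix (Fin 2) (Fin 2) K) ∈ B := by
      refine B.sub_mem (hS g) (B.smul_mem _ ?_)
      have := hS 1
      rwa [map_one] at this
    refine ⟨![s 0 0 - lam, s 1 0], ![1, (s 1 1 - lam) / s 1 0], ?_, ?_, ?_⟩
    · intro h
      have := congrFun h 1
      simp at this
      exact hs10 this
    · intro h
      have := congrFun h 0
      simp at this
    · convert hb using 1
      ext i j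
      fin_cases i <;> fin_cases j
      · simp [vecMulVec_apply]
      · simp [vecMulVec_apply]
        field_simp
        linear_combination hlam
      · simp [vecMulVec_apply]
      · simp
        field_simp
  -- all `vecMulVec a l` are in `B`
  have h1 : ∀ a : Fin 2 → K, vecMulVec a l ∈ B := by
    let U : Submodule K (Fin 2 → K) :=
      { carrier := {a | vecMulVec a l ∈ B}
        add_mem' := by
          intro a b ha hb
          simp only [Set.mem_ofPred_eq] at ha hb ⊢
          rw [add_vecMulVec]; exact B.add_mem ha hb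
        zero_mem' := by
          simp only [Set.mem_ofPred_eq]
          rw [zero_vecMulVec]; exact B.zero_mem
        smul_mem' := by
          intro c a ha
          simp only [Set.mem_ofPred_eq] at ha ⊢
          rw [smul_vecMulVec]; exact B.smul_mem _ ha }
    obtain ⟨g, hg⟩ := hirr u hu
    have hu' : u ∈ U := hul
    have hgu : S g *ᵥ u ∈ U := by
      show vecMulVec (S g *ᵥ u) l ∈ B
      rw [← mul_vecMulVec]
      exact hleft g _ hul
    have := submodule_eq_top_of_dd_ne_zero hu' hgu hg
    intro a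
    have ha : a ∈ U := by rw [this]; trivial
    exact ha
  -- all `vecMulVec a c` are in `B`
  have h2 : ∀ a c : Fin 2 → K, vecMulVec a c ∈ B := by
    intro a
    let U : Submodule K (Fin 2 → K) :=
      { carrier := {c | vecMulVec a c ∈ B}
        add_mem' := by
          intro b c hb hc
          simp only [Set.mem_ofPred_eq] at hb hc ⊢
          rw [vecMulVec_add]; exact B.add_mem hb hc
        zero_mem' := by
          simp only [Set.mem_ofPred_eq]
          rw [vecMulVec_zero]; exact B.zero_mem
        smul_mem' := by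
          intro c b hb
          simp only [Set.mem_ofPred_eq] at hb ⊢
          rw [vecMulVec_smul]; exact B.smul_mem _ hb }
    have hv0 : (![-l 1, l 0] : Fin 2 → K) ≠ 0 := by
      intro h
      apply hl
      funext i
      fin_cases i
      · have := congrFun h 1
        simpa using this
      · have := congrFun h 0
        simpa using this
    obtain ⟨g, hg⟩ := hirr _ hv0
    have hl' : l ∈ U := h1 a
    have hgl : l ᵥ* S g ∈ U := by
      show vecMulVec a (l ᵥ* S g) ∈ B
      rw [← vecMulVec_mul]
      exact hright g _ (h1 a)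
    have hdd : dd l (l ᵥ* S g) ≠ 0 := by
      intro h
      apply hg
      simp only [dd, Matrix.mulVec, Matrix.vecMul, dotProduct, Fin.sum_univ_two] at h ⊢
      simp only [Matrix.cons_val_zero, Matrix.cons_val_one]
      linear_combination -h
    have := submodule_eq_top_of_dd_ne_zero hl' hgl hdd
    intro c
    have hc : c ∈ U := by rw [this]; trivial
    exact hc
  rw [eq_top_iff]
  intro M _
  have hM : M = vecMulVec (fun i => M i 0) ![1, 0] + vecMulVec (fun i => M i 1) ![0, 1] := by
    ext i j
    fin_cases j <;> simp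
  rw [hM]
  exact B.add_mem (h2 _ _) (h2 _ _)

end Burnside

section Coord

variable {T : Type*} [CommRing T]

/-- The coordinate vector of a `2 × 2` matrix. -/
def vec (x : Matrix (Fin 2) (Fin 2) T) : Fin 2 × Fin 2 → T := fun ab => x ab.1 ab.2

/-- The coordinate matrix of a family of four `2 × 2` matrices. -/
def coordMat (X : Fin 2 × Fin 2 → Matrix (Fin 2) (Fin 2) T) :
    Matrix (Fin 2 × Fin 2) (Fin 2 × Fin 2) T := Matrix.of fun i => vec (X i)

omit [CommRing T] in
lemma vec_injective : Function.Injective (vec (T := T)) := by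
  intro x y h
  ext a b
  exact congrFun h (a, b)

lemma trace_mul_eq_sum (x y : Matrix (Fin 2) (Fin 2) T) :
    (x * y).trace = ∑ ab : Fin 2 × Fin 2, vec x ab * vec y ab.swap := by
  simp only [Matrix.trace, Matrix.diag_apply, Matrix.mul_apply, Fintype.sum_prod_type, vec,
    Prod.swap_prod_mk]

/-- Expansion of a matrix in a family with invertible coordinate matrix. -/
lemma expansion {X : Fin 2 × Fin 2 → Matrix (Fin 2) (Fin 2) T} (hX : IsUnit (coordMat X).det)
    (x : Matrix (Fin 2) (Fin 2) T) :
    x = ∑ i, (vec x ᵥ* (coordMat X)⁻¹) i • X i := by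
  have h1 : (vec x ᵥ* (coordMat X)⁻¹) ᵥ* coordMat X = vec x := by
    rw [Matrix.vecMul_vecMul, Matrix.nonsing_inv_mul _ hX, Matrix.vecMul_one]
  ext a b
  have h2 := congrFun h1 (a, b)
  simp only [Matrix.vecMul, dotProduct, coordMat, Matrix.of_apply, vec] at h2
  rw [Matrix.sum_apply]
  simp only [Matrix.smul_apply, smul_eq_mul]
  exact h2.symm

/-- The swapped coordinate matrix. -/
def coordMatSwap (X : Fin 2 × Fin 2 → Matrix (Fin 2) (Fin 2) T) :
    Matrix (Fin 2 × Fin 2) (Fin 2 × Fin 2) T :=
  (coordMat X).submatrix id (Equiv.prodComm (Fin 2) (Fin 2))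

lemma isUnit_det_coordMatSwap {X : Fin 2 × Fin 2 → Matrix (Fin 2) (Fin 2) T}
    (hX : IsUnit (coordMat X).det) : IsUnit (coordMatSwap X).det := by
  unfold coordMatSwap
  rw [Matrix.det_permute']
  refine IsUnit.mul ?_ hX
  exact (Equiv.Perm.sign (Equiv.prodComm (Fin 2) (Fin 2))).isUnit.map (Int.castRingHom T)

lemma gram_eq (X : Fin 2 × Fin 2 → Matrix (Fin 2) (Fin 2) T) (i j : Fin 2 × Fin 2) :
    (coordMat X * (coordMatSwap X)ᵀ) i j = (X i * X j).trace := by
  rw [trace_mul_eq_sum, Matrix.mul_apply]
  rfl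

/-- Equal Gram matrices: the second family also has invertible coordinate matrix. -/
lemma isUnit_det_coordMat_of_gram {X Y : Fin 2 × Fin 2 → Matrix (Fin 2) (Fin 2) T}
    (hX : IsUnit (coordMat X).det)
    (h : ∀ i j, (X i * X j).trace = (Y i * Y j).trace) : IsUnit (coordMat Y).det := by
  have h1 : coordMat X * (coordMatSwap X)ᵀ = coordMat Y * (coordMatSwap Y)ᵀ := by
    ext i j
    rw [gram_eq, gram_eq, h]
  have h2 : IsUnit ((coordMat Y).det * (coordMatSwap Y)ᵀ.det) := by
    rw [← Matrix.det_mul, ← h1, Matrix.det_mul, Matrix.det_transpose]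
    exact hX.mul (isUnit_det_coordMatSwap hX)
  exact isUnit_of_mul_isUnit_left h2

/-- Nondegeneracy of the trace form against a family with invertible coordinate matrix. -/
lemma eq_zero_of_trace_mul_eq_zero {Y : Fin 2 × Fin 2 → Matrix (Fin 2) (Fin 2) T}
    (hY : IsUnit (coordMat Y).det) (z : Matrix (Fin 2) (Fin 2) T)
    (h : ∀ j, (z * Y j).trace = 0) : z = 0 := by
  have h1 : coordMatSwap Y *ᵥ vec z = 0 := by
    funext j
    have := h j
    rw [trace_mul_eq_sum] at this
    simp only [Matrix.mulVec, dotProduct, Pi.zero_apply]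
    rw [← this]
    refine Finset.sum_congr rfl fun ab _ => ?_
    rw [mul_comm]
    rfl
  have h2 : vec z = 0 := by
    have h3 : (coordMatSwap Y)⁻¹ *ᵥ (coordMatSwap Y *ᵥ vec z) = vec z := by
      rw [Matrix.mulVec_mulVec, Matrix.nonsing_inv_mul _ (isUnit_det_coordMatSwap hY),
        Matrix.one_mulVec]
    rw [← h3, h1, Matrix.mulVec_zero]
  apply vec_injective
  rw [h2]
  rfl

end Coord

section Extract

variable {K : Type*} [Field K]

/-- `vec` as a linear map. -/
def vecLin : Matrix (Fin 2) (Fin 2) K →ₗ[K] (Fin 2 × Fin 2 → K) where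
  toFun := vec
  map_add' _ _ := rfl
  map_smul' _ _ := rfl

/-- From a spanning family, extract four members with invertible coordinate matrix. -/
lemma exists_coordMat_det_ne_zero {G : Type*} (S : G → Matrix (Fin 2) (Fin 2) K)
    (h : Submodule.span K (Set.range S) = ⊤) :
    ∃ g : Fin 2 × Fin 2 → G, (coordMat (fun i => S (g i))).det ≠ 0 := by
  obtain ⟨f, hf, -, hli⟩ := Submodule.exists_fun_fin_finrank_span_eq K (Set.range S)
  have hrank : Module.finrank K (Submodule.span K (Set.range S)) = 2 * 2 := by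
    rw [h, finrank_top, Module.finrank_matrix]
    simp
  choose g' hg' using hf
  let e : Fin 2 × Fin 2 ≃ Fin (Module.finrank K (Submodule.span K (Set.range S))) :=
    finProdFinEquiv.trans (finCongr hrank.symm)
  refine ⟨fun i => g' (e i), ?_⟩
  have hli1 : LinearIndependent K (fun i => f (e i)) := hli.comp e e.injective
  have hli2 : LinearIndependent K (fun i => vecLin (f (e i))) :=
    hli1.map' vecLin (LinearMap.ker_eq_bot.mpr vec_injective)
  have hrow : (coordMat fun i => S (g' (e i))).row = fun i => vecLin (f (e i)) := by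
    funext i
    show vec (S (g' (e i))) = vec (f (e i))
    rw [hg']
  have hunit : IsUnit (coordMat fun i => S (g' (e i))) := by
    rw [← Matrix.linearIndependent_rows_iff_isUnit, hrow]
    exact hli2
  exact ((Matrix.isUnit_iff_isUnit_det _).mp hunit).ne_zero

end Extract

section Inner

variable {T : Type*} [CommRing T]

/-- The generic intertwiner attached to a multiplicative linear endomorphism of `M₂(T)`. -/
def innerP (Φ : Matrix (Fin 2) (Fin 2) T →ₗ[T] Matrix (Fin 2) (Fin 2) T) (l : Fin 2) :
    Matrix (Fin 2) (Fin 2) T :=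
  Φ (Matrix.single 0 0 1) * Matrix.single l 0 1 + Φ (Matrix.single 1 0 1) * Matrix.single l 1 1

/-- The generic inverse intertwiner. -/
def innerQ (Φ : Matrix (Fin 2) (Fin 2) T →ₗ[T] Matrix (Fin 2) (Fin 2) T) (l : Fin 2) :
    Matrix (Fin 2) (Fin 2) T :=
  Matrix.single 0 l 1 * Φ (Matrix.single 0 0 1) + Matrix.single 1 l 1 * Φ (Matrix.single 0 1 1)

lemma map_single_mul_innerP (Φ : Matrix (Fin 2) (Fin 2) T →ₗ[T] Matrix (Fin 2) (Fin 2) T)
    (hmul : ∀ x y, Φ (x * y) = Φ x * Φ y) (l k k' : Fin 2) :
    Φ (Matrix.single k k' 1) * innerP Φ l = innerP Φ l * Matrix.single k k' 1 := by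
  have h1 : Φ (Matrix.single k k' 1) * innerP Φ l =
      Φ (Matrix.single k k' 1 * Matrix.single 0 0 1) * Matrix.single l 0 1 +
        Φ (Matrix.single k k' 1 * Matrix.single 1 0 1) * Matrix.single l 1 1 := by
    rw [innerP, mul_add, ← mul_assoc, ← mul_assoc, ← hmul, ← hmul]
  have h2 : innerP Φ l * Matrix.single k k' 1 =
      Φ (Matrix.single 0 0 1) * (Matrix.single l 0 1 * Matrix.single k k' 1) +
        Φ (Matrix.single 1 0 1) * (Matrix.single l 1 1 * Matrix.single k k' 1) := by
    rw [innerP, add_mul, mul_assoc, mul_assoc]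
  rw [h1, h2]
  fin_cases k <;> fin_cases k' <;> simp

lemma map_mul_innerP (Φ : Matrix (Fin 2) (Fin 2) T →ₗ[T] Matrix (Fin 2) (Fin 2) T)
    (hmul : ∀ x y, Φ (x * y) = Φ x * Φ y) (l : Fin 2) (x : Matrix (Fin 2) (Fin 2) T) :
    Φ x * innerP Φ l = innerP Φ l * x := by
  have hx : x = ∑ k : Fin 2, ∑ k' : Fin 2, x k k' • Matrix.single k k' (1 : T) := by
    conv_lhs => rw [Matrix.matrix_eq_sum_single x]
    refine Finset.sum_congr rfl fun k _ => Finset.sum_congr rfl fun k' _ => ?_
    rw [Matrix.smul_single, smul_eq_mul, mul_one]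
  rw [hx]
  simp only [map_sum, map_smul, Finset.sum_mul, Finset.mul_sum, Matrix.smul_mul, Matrix.mul_smul,
    map_single_mul_innerP Φ hmul]

lemma innerQ_mul_innerP (Φ : Matrix (Fin 2) (Fin 2) T →ₗ[T] Matrix (Fin 2) (Fin 2) T)
    (hmul : ∀ x y, Φ (x * y) = Φ x * Φ y) (l : Fin 2) :
    innerQ Φ l * innerP Φ l = (Φ (Matrix.single 0 0 1) l l) • (1 : Matrix (Fin 2) (Fin 2) T) := by
  have h1 : innerQ Φ l * innerP Φ l =
      Matrix.single 0 l 1 * Φ (Matrix.single 0 0 1 * Matrix.single 0 0 1) * Matrix.single l 0 1 +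
      Matrix.single 0 l 1 * Φ (Matrix.single 0 0 1 * Matrix.single 1 0 1) * Matrix.single l 1 1 +
      Matrix.single 1 l 1 * Φ (Matrix.single 0 1 1 * Matrix.single 0 0 1) * Matrix.single l 0 1 +
      Matrix.single 1 l 1 * Φ (Matrix.single 0 1 1 * Matrix.single 1 0 1) * Matrix.single l 1 1 := by
    simp only [innerQ, innerP, hmul]
    noncomm_ring
  rw [h1]
  simp only [Matrix.single_mul_single_same, mul_one, ne_eq, zero_ne_one, not_false_eq_true,
    Matrix.single_mul_single_of_ne, one_ne_zero, map_zero, mul_zero, zero_mul, add_zero,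
    Matrix.single_mul_mul_single, one_mul]
  ext i j
  fin_cases i <;> fin_cases j <;> simp

end Inner

section Main

open IsLocalRing

/-- **Carayol's lemma, matrix form.** Two multiplicative families of `2 × 2` matrices over a
local ring with the same traces, the first one residually absolutely irreducible, are conjugate. -/
theorem exists_intertwiner {T : Type*} [CommRing T] [IsLocalRing T] {K : Type*} [Field K]
    [IsAlgClosed K] (φ : T →+* K) (hφ : ∀ a : T, φ a ≠ 0 → IsUnit a)
    {G : Type*} [Monoid G] (R₁ R₂ : G →* Matrix (Fin 2) (Fin 2) T)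
    (htr : ∀ g, (R₁ g).trace = (R₂ g).trace)
    (hirr : ∀ v : Fin 2 → K, v ≠ 0 → ∃ g, dd v ((R₁ g).map φ *ᵥ v) ≠ 0) :
    ∃ P : Matrix (Fin 2) (Fin 2) T, IsUnit P.det ∧ ∀ g, R₂ g * P = P * R₁ g := by
  classical
  -- Burnside over `K`
  let S : G →* Matrix (Fin 2) (Fin 2) K := (RingHom.mapMatrix φ).toMonoidHom.comp R₁
  have hS : ∀ g, S g = (R₁ g).map φ := fun g => rfl
  have hspan : Submodule.span K (Set.range S) = ⊤ := burnside_two S hirr
  obtain ⟨g, hg⟩ := exists_coordMat_det_ne_zero (fun x => S x) hspan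
  set X : Fin 2 × Fin 2 → Matrix (Fin 2) (Fin 2) T := fun i => R₁ (g i) with hXdef
  set Y : Fin 2 × Fin 2 → Matrix (Fin 2) (Fin 2) T := fun i => R₂ (g i) with hYdef
  have hX : IsUnit (coordMat X).det := by
    apply hφ
    rw [RingHom.map_det]
    exact hg
  have hY : IsUnit (coordMat Y).det := isUnit_det_coordMat_of_gram hX (fun i j => by
    simp only [hXdef, hYdef]
    rw [← map_mul, ← map_mul, htr])
  -- the transfer map
  let Φ : Matrix (Fin 2) (Fin 2) T →ₗ[T] Matrix (Fin 2) (Fin 2) T :=
    { toFun := fun x => ∑ i, (vec x ᵥ* (coordMat X)⁻¹) i • Y i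
      map_add' := by
        intro x y
        have : vec (x + y) = vec x + vec y := rfl
        simp only [this, Matrix.add_vecMul, Pi.add_apply, add_smul, Finset.sum_add_distrib]
      map_smul' := by
        intro c x
        have : vec (c • x) = c • vec x := rfl
        simp only [this, Matrix.smul_vecMul, Pi.smul_apply, smul_eq_mul, RingHom.id_apply,
          Finset.smul_sum, smul_smul] }
  have hΦ : ∀ x, Φ x = ∑ i, (vec x ᵥ* (coordMat X)⁻¹) i • Y i := fun x => rfl
  -- compatibility with traces
  have h4 : ∀ x h, (Φ x * R₂ h).trace = (x * R₁ h).trace := by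
    intro x h
    conv_rhs => rw [expansion hX x]
    rw [hΦ, Finset.sum_mul, Finset.sum_mul, Matrix.trace_sum, Matrix.trace_sum]
    refine Finset.sum_congr rfl fun i _ => ?_
    rw [Matrix.smul_mul, Matrix.smul_mul, Matrix.trace_smul, Matrix.trace_smul]
    simp only [hXdef, hYdef]
    rw [← map_mul, ← map_mul, htr]
  have h5 : ∀ g', Φ (R₁ g') = R₂ g' := by
    intro g'
    have : Φ (R₁ g') - R₂ g' = 0 := by
      refine eq_zero_of_trace_mul_eq_zero hY _ fun j => ?_
      rw [sub_mul, Matrix.trace_sub, sub_eq_zero]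
      simp only [hYdef]
      rw [h4, ← map_mul, ← map_mul, htr]
    exact sub_eq_zero.mp this
  have h6 : ∀ x y, Φ (x * y) = Φ x * Φ y := by
    intro x y
    have hxy : x * y = ∑ i, ∑ j, ((vec x ᵥ* (coordMat X)⁻¹) i * (vec y ᵥ* (coordMat X)⁻¹) j) •
        (X i * X j) := by
      conv_lhs => rw [expansion hX x, expansion hX y]
      rw [Finset.sum_mul]
      refine Finset.sum_congr rfl fun i _ => ?_
      rw [Finset.mul_sum]
      refine Finset.sum_congr rfl fun j _ => ?_
      rw [Matrix.smul_mul, Matrix.mul_smul, smul_smul]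
    rw [hxy, hΦ x, hΦ y, map_sum, Finset.sum_mul]
    refine Finset.sum_congr rfl fun i _ => ?_
    rw [map_sum, Finset.mul_sum]
    refine Finset.sum_congr rfl fun j _ => ?_
    rw [map_smul, Matrix.smul_mul, Matrix.mul_smul, smul_smul]
    congr 1
    simp only [hXdef, hYdef]
    rw [← map_mul, h5, map_mul]
  have h7 : ∀ x, (Φ x).trace = x.trace := by
    intro x
    have := h4 x 1
    rwa [map_one, map_one, mul_one, mul_one] at this
  -- a unit diagonal entry of `Φ E₁₁`
  have hone : Φ (Matrix.single 0 0 1) 0 0 + Φ (Matrix.single 0 0 1) 1 1 = 1 := by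
    have := h7 (Matrix.single 0 0 1)
    rw [Matrix.trace_fin_two, Matrix.trace_fin_two] at this
    rw [this]
    simp
  obtain ⟨l, hl⟩ : ∃ l : Fin 2, IsUnit (Φ (Matrix.single 0 0 1) l l) := by
    rcases IsLocalRing.isUnit_or_isUnit_of_add_one hone with h | h
    · exact ⟨0, h⟩
    · exact ⟨1, h⟩
  refine ⟨innerP Φ l, ?_, fun g' => ?_⟩
  · have hdet : (innerQ Φ l).det * (innerP Φ l).det = (Φ (Matrix.single 0 0 1) l l) ^ 2 := by
      rw [← Matrix.det_mul, innerQ_mul_innerP Φ h6 l, Matrix.det_smul, Matrix.det_one, mul_one,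
        Fintype.card_fin]
    have : IsUnit ((innerQ Φ l).det * (innerP Φ l).det) := by
      rw [hdet]
      exact hl.pow 2
    exact isUnit_of_mul_isUnit_right this
  · rw [← h5 g']
    exact map_mul_innerP Φ h6 l (R₁ g')

end Main

end Fermat.Agent.Cheb.R2
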