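import Mathlib
import Fermat.Prelude.Def_GaloisRep_Adic
import Fermat.Agent.Cheb.CarayolAux

/-!
# Trace rigidity for residually absolutely irreducible rank-two adic Galois representations

* `exists_basis_isUnit_coordMat`: for a residually absolutely irreducible `GaloisRepAdic T`
  (`T` any local ring) there are a basis and four group elements whose matrices form a `T`-basis of
  `M₂(T)` (Burnside + Nakayama, in coordinates).
* `eq_one_of_trace_mul_eq`: if `tr ρ(σ τ) = tr ρ(σ)` for all `σ`, then `ρ(τ) = 1`.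
* `isUnramifiedAt_of_trace`: a residually absolutely irreducible `ρ` whose trace is invariant under
  right multiplication by every inertia element at `q` is unramified at `q`.
-/

namespace Fermat.Agent.Cheb

open scoped TensorProduct
open Matrix

/-- Burnside + Nakayama in coordinates for a residually absolutely irreducible representation. -/
theorem exists_basis_isUnit_coordMat {T : Type} [CommRing T] [IsLocalRing T]
    (ρ : GaloisRepAdic T) (hirr : ρ.residual.IsAbsolutelyIrreducible) :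
    ∃ (b : Module.Basis (Fin 2) T ρ.V)
      (g : Fin 2 × Fin 2 → (AlgebraicClosure ℚ ≃ₐ[ℚ] AlgebraicClosure ℚ)),
      IsUnit (R2.coordMat fun i => LinearMap.toMatrix b b (ρ.ρ (g i))).det := by
  classical
  let k := IsLocalRing.ResidueField T
  let K := AlgebraicClosure k
  let b₁ : Module.Basis (Fin 2) T ρ.V := Module.finBasisOfFinrankEq T ρ.V ρ.finrank_eq
  let R₁ : (AlgebraicClosure ℚ ≃ₐ[ℚ] AlgebraicClosure ℚ) →* Matrix (Fin 2) (Fin 2) T :=
    (LinearMap.toMatrixAlgEquiv b₁ : Module.End T ρ.V →* Matrix (Fin 2) (Fin 2) T).comp ρ.ρ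
  have hR₁ : ∀ σ, R₁ σ = LinearMap.toMatrix b₁ b₁ (ρ.ρ σ) := fun σ => rfl
  let φ : T →+* K := (algebraMap k K).comp (algebraMap T k)
  have hφ : ∀ a : T, φ a ≠ 0 → IsUnit a := by
    intro a ha
    by_contra hu
    apply ha
    have : algebraMap T k a = 0 := by
      rw [IsLocalRing.ResidueField.algebraMap_eq]
      exact (IsLocalRing.residue_eq_zero_iff a).mpr hu
    show algebraMap k K (algebraMap T k a) = 0
    rw [this, map_zero]
  let β : Module.Basis (Fin 2) K (K ⊗[k] (k ⊗[T] ρ.V)) :=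
    Algebra.TensorProduct.basis K (Algebra.TensorProduct.basis k b₁)
  have hβ : ∀ σ, LinearMap.toMatrix β β (((ρ.ρ σ).baseChange k).baseChange K) =
      (R₁ σ).map φ := by
    intro σ
    rw [LinearMap.toMatrix_baseChange, LinearMap.toMatrix_baseChange, hR₁, Matrix.map_map]
    rfl
  have hirr' : ∀ v : Fin 2 → K, v ≠ 0 → ∃ σ, R2.dd v ((R₁ σ).map φ *ᵥ v) ≠ 0 := by
    intro v hv
    by_contra hcon
    push Not at hcon
    let x : K ⊗[k] (k ⊗[T] ρ.V) := β.equivFun.symm v
    have hxv : β.equivFun x = v := LinearEquiv.apply_symm_apply _ _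
    have hxne : x ≠ 0 := by
      intro hx0
      apply hv
      rw [← hxv, hx0, map_zero]
    have hstab : ∀ σ, ∃ c : K, ((ρ.ρ σ).baseChange k).baseChange K x = c • x := by
      intro σ
      obtain ⟨c, hc⟩ := R2.exists_smul_of_dd_eq_zero hv (hcon σ)
      refine ⟨c, ?_⟩
      apply β.equivFun.injective
      have h1 := LinearMap.toMatrix_mulVec_repr β β (((ρ.ρ σ).baseChange k).baseChange K) x
      rw [hβ σ, ← Module.Basis.equivFun_apply, ← Module.Basis.equivFun_apply, hxv, hc] at h1
      rw [map_smul, hxv, h1]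
    obtain ⟨W, hWdef⟩ : ∃ W : Submodule K (K ⊗[k] (k ⊗[T] ρ.V)), W = K ∙ x := ⟨_, rfl⟩
    have hW : W = ⊥ ∨ W = ⊤ := hirr W (by
      intro σ (y : K ⊗[k] (k ⊗[T] ρ.V)) (hy : y ∈ W)
      rw [hWdef] at hy
      obtain ⟨a, rfl⟩ := Submodule.mem_span_singleton.mp hy
      obtain ⟨c, hc⟩ := hstab σ
      show ((ρ.ρ σ).baseChange k).baseChange K (a • x) ∈ W
      rw [map_smul, hc, smul_smul, hWdef]
      exact Submodule.mem_span_singleton.mpr ⟨a * c, rfl⟩)
    have h1 : Module.finrank K W = 1 := by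
      rw [hWdef]
      exact finrank_span_singleton hxne
    rcases hW with hW | hW
    · rw [hWdef] at hW
      exact hxne (Submodule.span_singleton_eq_bot.mp hW)
    · rw [hW, finrank_top, Module.finrank_eq_card_basis β, Fintype.card_fin] at h1
      omega
  let S : (AlgebraicClosure ℚ ≃ₐ[ℚ] AlgebraicClosure ℚ) →* Matrix (Fin 2) (Fin 2) K :=
    (RingHom.mapMatrix φ).toMonoidHom.comp R₁
  have hspan : Submodule.span K (Set.range S) = ⊤ := R2.burnside_two S hirr'
  obtain ⟨g, hg⟩ := R2.exists_coordMat_det_ne_zero (fun x => S x) hspan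
  refine ⟨b₁, g, ?_⟩
  apply hφ
  rw [RingHom.map_det]
  exact hg

/-- **Trace rigidity.** If the trace of a residually absolutely irreducible `ρ` is invariant under
right multiplication by `τ`, then `ρ τ = 1`. -/
theorem eq_one_of_trace_mul_eq {T : Type} [CommRing T] [IsLocalRing T]
    (ρ : GaloisRepAdic T) (hirr : ρ.residual.IsAbsolutelyIrreducible)
    (τ : AlgebraicClosure ℚ ≃ₐ[ℚ] AlgebraicClosure ℚ)
    (h : ∀ σ : AlgebraicClosure ℚ ≃ₐ[ℚ] AlgebraicClosure ℚ, ρ.trace (σ * τ) = ρ.trace σ) :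
    ρ.ρ τ = 1 := by
  classical
  obtain ⟨b, g, hg⟩ := exists_basis_isUnit_coordMat ρ hirr
  have htr : ∀ σ, ρ.trace σ = (LinearMap.toMatrix b b (ρ.ρ σ)).trace := by
    intro σ
    rw [GaloisRepAdic.trace, LinearMap.trace_eq_matrix_trace T b]
  have hz : LinearMap.toMatrix b b (ρ.ρ τ) - 1 = 0 := by
    refine R2.eq_zero_of_trace_mul_eq_zero hg _ fun j => ?_
    rw [sub_mul, one_mul, Matrix.trace_sub, sub_eq_zero, Matrix.trace_mul_comm,
      ← LinearMap.toMatrix_mul, ← map_mul, ← htr, ← htr, h]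
  have h1 : LinearMap.toMatrix b b (ρ.ρ τ) = LinearMap.toMatrix b b (1 : Module.End T ρ.V) := by
    rw [LinearMap.toMatrix_one]
    exact sub_eq_zero.mp hz
  exact (LinearMap.toMatrix b b).injective h1

/-- A residually absolutely irreducible representation whose trace is invariant under right
multiplication by all inertia elements at `q` is unramified at `q`. -/
theorem isUnramifiedAt_of_trace {T : Type} [CommRing T] [IsLocalRing T]
    (ρ : GaloisRepAdic T) (hirr : ρ.residual.IsAbsolutelyIrreducible) (q : ℕ)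
    (h : ∀ P : ValuationSubring (AlgebraicClosure ℚ), P.LiesOverPrime q →
      ∀ τ ∈ P.inertiaSubgroupIn ℚ, ∀ σ : AlgebraicClosure ℚ ≃ₐ[ℚ] AlgebraicClosure ℚ,
        ρ.trace (σ * τ) = ρ.trace σ) :
    ρ.IsUnramifiedAt q :=
  fun P hP τ hτ => eq_one_of_trace_mul_eq ρ hirr τ (h P hP τ hτ)

end Fermat.Agent.Cheb
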